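import Fermat.Agent.GR.Defs
import Fermat.Prelude.Def_AlgebraicCurve_BaseChangeGalois

/-!
# GR-C: basic definitions (base change of the function field, semilinear automorphisms)
-/

set_option autoImplicit false

noncomputable section

open ModularCurve AlgebraicCurve IntermediateField

namespace Fermat.Agent.GR.C

section

variable {K K' K'' : Type*} [Field K] [Field K'] [Field K'']

theorem coeffMap_algebraMap' (φ : K →+* K') (a : K) :
    coeffMap φ (algebraMap K (LaurentSeries K) a) = algebraMap K' (LaurentSeries K') (φ a) := by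
  rw [algebraMap_laurentSeries_eq_single, algebraMap_laurentSeries_eq_single, coeffMap_single]

theorem coeffMap_injective (φ : K →+* K') : Function.Injective (coeffMap φ) :=
  (coeffMap φ).injective

theorem coeffMap_order (φ : K →+* K') (f : LaurentSeries K) :
    (coeffMap φ f).order = f.order := by
  rcases eq_or_ne f 0 with rfl | hf
  · simp
  have hf' : coeffMap φ f ≠ 0 := (map_ne_zero (coeffMap φ)).2 hf
  apply le_antisymm
  · apply HahnSeries.order_le_of_coeff_ne_zero
    rw [coeffMap_coeff]
    exact (map_ne_zero φ).2 (fun h => hf (HahnSeries.coeff_order_eq_zero.1 h))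
  · apply HahnSeries.order_le_of_coeff_ne_zero
    have : (coeffMap φ f).coeff (coeffMap φ f).order ≠ 0 :=
      fun h => hf' (HahnSeries.coeff_order_eq_zero.1 h)
    rw [coeffMap_coeff] at this
    exact fun h => this (by rw [h, map_zero])

variable (N : ℕ)

theorem coeffMap_mem_FF (φ : K →+* K') {f : LaurentSeries K} (hf : f ∈ FF K N) :
    coeffMap φ f ∈ FF K' N := by
  induction hf using IntermediateField.adjoin_induction with
  | mem x hx =>
      obtain ⟨d, hd, hdN, rfl⟩ := hx
      rw [coeffMap_qExpand, coeffMap_jqModC]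
      exact jqModCd_mem_full K' N hdN
  | algebraMap a =>
      rw [coeffMap_algebraMap']
      exact (FF K' N).algebraMap_mem _
  | add x y _ _ hx hy => rw [map_add]; exact add_mem hx hy
  | inv x _ hx => rw [map_inv₀]; exact inv_mem hx
  | mul x y _ _ hx hy => rw [map_mul]; exact mul_mem hx hy

/-- Base change of the function field along a field homomorphism. -/
def bc (φ : K →+* K') : FF K N →+* FF K' N where
  toFun f := ⟨coeffMap φ (f : LaurentSeries K), coeffMap_mem_FF N φ f.2⟩
  map_one' := Subtype.ext (map_one (coeffMap φ))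
  map_mul' _ _ := Subtype.ext (map_mul (coeffMap φ) _ _)
  map_zero' := Subtype.ext (map_zero (coeffMap φ))
  map_add' _ _ := Subtype.ext (map_add (coeffMap φ) _ _)

@[simp] theorem coe_bc (φ : K →+* K') (f : FF K N) :
    ((bc N φ f : FF K' N) : LaurentSeries K') = coeffMap φ (f : LaurentSeries K) := rfl

theorem bc_algebraMap (φ : K →+* K') (a : K) :
    bc N φ (algebraMap K (FF K N) a) = algebraMap K' (FF K' N) (φ a) :=
  Subtype.ext (coeffMap_algebraMap' φ a)

theorem bc_bc (ψ : K' →+* K'') (φ : K →+* K') (f : FF K N) :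
    bc N ψ (bc N φ f) = bc N (ψ.comp φ) f :=
  Subtype.ext (coeffMap_coeffMap ψ φ _)

theorem bc_id (f : FF K N) : bc N (RingHom.id K) f = f :=
  Subtype.ext (coeffMap_id _)

variable (K) in
/-- The function `j`. -/
def jF : FF K N := ⟨jqModC K, jqModC_mem_full K N⟩

@[simp] theorem coe_jF : ((jF K N : FF K N) : LaurentSeries K) = jqModC K := rfl

theorem bc_jF (φ : K →+* K') : bc N φ (jF K N) = jF K' N :=
  Subtype.ext (coeffMap_jqModC φ)

/-- The ring automorphism of the function field induced by an automorphism of the constants. -/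
def ffRingAut (σ : K ≃+* K) : FF K N ≃+* FF K N where
  toFun := bc N (σ : K →+* K)
  invFun := bc N (σ.symm : K →+* K)
  left_inv f := by
    rw [bc_bc]
    have : (σ.symm : K →+* K).comp (σ : K →+* K) = RingHom.id K :=
      RingHom.ext fun a => σ.symm_apply_apply a
    rw [this, bc_id]
  right_inv f := by
    rw [bc_bc]
    have : (σ : K →+* K).comp (σ.symm : K →+* K) = RingHom.id K :=
      RingHom.ext fun a => σ.apply_symm_apply a
    rw [this, bc_id]
  map_mul' := map_mul _
  map_add' := map_add _

/-- The semilinear automorphism of the function field induced by an automorphism of the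
constants. -/
def ffAut : (K ≃+* K) →* SemilinearAut K (FF K N) where
  toFun σ := ⟨(ffRingAut N σ, σ), fun a => bc_algebraMap N (σ : K →+* K) a⟩
  map_one' := by
    refine Subtype.ext (Prod.ext (RingEquiv.ext fun f => ?_) rfl)
    exact bc_id N f
  map_mul' σ τ := by
    refine Subtype.ext (Prod.ext (RingEquiv.ext fun f => ?_) rfl)
    exact (bc_bc N (σ : K →+* K) (τ : K →+* K) f).symm

theorem ffAut_smul (σ : K ≃+* K) (f : FF K N) : ffAut N σ • f = bc N (σ : K →+* K) f := rfl

theorem coe_ffAut_smul (σ : K ≃+* K) (f : FF K N) :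
    ((ffAut N σ • f : FF K N) : LaurentSeries K) = coeffMap (σ : K →+* K) f := rfl

theorem ffAut_smul_jF (σ : K ≃+* K) : ffAut N σ • jF K N = jF K N := bc_jF N _

/-- Automorphisms of the constants preserve the Kummer condition. -/
theorem isKummer_coeffMap_ringEquiv {N n : ℕ} {u : LaurentSeries K} (hu : IsKummer (N := N) n u)
    (σ : K ≃+* K) : IsKummer (N := N) n (coeffMap (σ : K →+* K) u) := by
  obtain ⟨h0, hmem, hord⟩ := hu
  refine ⟨(map_ne_zero _).2 h0, coeffMap_mem_FF N _ hmem, fun v => ?_⟩
  have h := SemilinearAut.ord_smul (ffAut N σ) ((ffAut N σ)⁻¹ • v) (⟨u, hmem⟩ : FF K N)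
  rw [smul_inv_smul] at h
  have h2 : (⟨coeffMap (σ : K →+* K) u, coeffMap_mem_FF N _ hmem⟩ : FF K N) =
      ffAut N σ • (⟨u, hmem⟩ : FF K N) := rfl
  rw [h2, h]
  exact hord _

theorem kummerEquiv_coeffMap {N n : ℕ} {u u' : LaurentSeries K} (h : KummerEquiv N n u u')
    (φ : K →+* K') : KummerEquiv N n (coeffMap φ u) (coeffMap φ u') := by
  obtain ⟨z, hz, hz0, rfl⟩ := h
  exact ⟨_, coeffMap_mem_FF N φ hz, (map_ne_zero _).2 hz0, by rw [map_mul, map_pow]⟩

theorem kummerEquiv_refl (N n : ℕ) (u : LaurentSeries K) : KummerEquiv N n u u :=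
  ⟨1, one_mem _, one_ne_zero, by simp⟩

theorem kummerEquiv_symm {N n : ℕ} {u u' : LaurentSeries K} (h : KummerEquiv N n u u') :
    KummerEquiv N n u' u := by
  obtain ⟨z, hz, hz0, rfl⟩ := h
  refine ⟨z⁻¹, inv_mem hz, inv_ne_zero hz0, ?_⟩
  rw [inv_pow, mul_assoc, mul_inv_cancel₀ (pow_ne_zero _ hz0), mul_one]

theorem kummerEquiv_trans {N n : ℕ} {u u' u'' : LaurentSeries K} (h : KummerEquiv N n u u')
    (h' : KummerEquiv N n u' u'') : KummerEquiv N n u u'' := by
  obtain ⟨z, hz, hz0, rfl⟩ := h
  obtain ⟨z', hz', hz0', rfl⟩ := h'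
  exact ⟨z * z', mul_mem hz hz', mul_ne_zero hz0 hz0', by rw [mul_pow, mul_assoc]⟩

end

end Fermat.Agent.GR.C
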