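
import Fermat.Agent.GR.C.Basic

set_option autoImplicit false

noncomputable section

open ModularCurve AlgebraicCurve

namespace Fermat.Agent.GR.C

variable {K : Type*} [Field K] {N n : ℕ}

theorem qp_order_mul {a b : LaurentSeries K} (ha : a ≠ 0) (hb : b ≠ 0) :
    (a * b).order = a.order + b.order := HahnSeries.order_mul ha hb

theorem qp_order_inv (a : LaurentSeries K) : (a⁻¹).order = -a.order := by
  rcases eq_or_ne a 0 with rfl | ha
  · simp
  · have h := qp_order_mul ha (inv_ne_zero ha)
    rw [mul_inv_cancel₀ ha, HahnSeries.order_one] at h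
    omega

theorem qp_order_zpow (a : LaurentSeries K) (m : ℤ) : (a ^ m).order = m * a.order := by
  rcases eq_or_ne a 0 with rfl | ha
  · rcases eq_or_ne m 0 with rfl | hm
    · simp
    · simp [zero_zpow m hm]
  have hnat : ∀ k : ℕ, (a ^ k).order = k * a.order := by
    intro k
    induction k with
    | zero => simp
    | succ k ih =>
      rw [pow_succ, qp_order_mul (pow_ne_zero k ha) ha, ih]
      push_cast
      ring
  obtain ⟨k, rfl | rfl⟩ := m.eq_nat_or_neg
  · rw [zpow_natCast, hnat]
  · rw [zpow_neg, zpow_natCast, qp_order_inv, hnat]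
    ring

theorem qp_order_jqModC : (jqModC K).order = -1 := by
  have hne : jqModC K ≠ 0 := jqModC_ne_zero_of_nontrivial K
  apply le_antisymm
  · apply HahnSeries.order_le_of_coeff_ne_zero
    rw [coeff_jqModC_neg_one]
    exact one_ne_zero
  · rw [HahnSeries.le_order_iff_forall hne]
    intro k hk
    exact coeff_jqModC_of_lt K hk

variable (K N) in
/-- the valuation subring of `FF K N` of the series of nonnegative order. -/
def qSubring : ValuationSubring (FF K N) where
  carrier := {f | 0 ≤ (f : LaurentSeries K).order}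
  mul_mem' := by
    intro a b ha hb
    simp only [Set.mem_ofPred_eq] at *
    rcases eq_or_ne a 0 with rfl | ha0
    · simp
    rcases eq_or_ne b 0 with rfl | hb0
    · simp
    have ha0' : (a : LaurentSeries K) ≠ 0 := by simpa using ha0
    have hb0' : (b : LaurentSeries K) ≠ 0 := by simpa using hb0
    rw [MulMemClass.coe_mul, qp_order_mul ha0' hb0']
    omega
  one_mem' := by simp
  add_mem' := by
    intro a b ha hb
    simp only [Set.mem_ofPred_eq] at *
    rcases eq_or_ne ((a : LaurentSeries K) + b) 0 with h | h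
    · rw [AddMemClass.coe_add, h]; simp
    · have := HahnSeries.min_order_le_order_add h
      rw [AddMemClass.coe_add]
      omega
  zero_mem' := by simp
  neg_mem' := by
    intro a ha
    simp only [Set.mem_ofPred_eq] at *
    rw [NegMemClass.coe_neg, HahnSeries.order_neg]
    exact ha
  mem_or_inv_mem' := by
    intro a
    simp only [Set.mem_ofPred_eq]
    have : ((a⁻¹ : FF K N) : LaurentSeries K).order = -(a : LaurentSeries K).order := by
      rw [← qp_order_inv]; rfl
    rw [this]
    omega

theorem mem_qSubring (f : FF K N) : f ∈ qSubring K N ↔ 0 ≤ (f : LaurentSeries K).order := Iff.rfl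

theorem qp_coe_inv (a : FF K N) : ((a⁻¹ : FF K N) : LaurentSeries K) = (a : LaurentSeries K)⁻¹ := rfl

theorem qp_isUnit_iff (a : qSubring K N) (ha : a ≠ 0) :
    IsUnit a ↔ ((a : FF K N) : LaurentSeries K).order = 0 := by
  have ha0 : (a : FF K N) ≠ 0 := by simpa using ha
  have ha0' : ((a : FF K N) : LaurentSeries K) ≠ 0 := by simpa using ha0
  constructor
  · rintro ⟨u, rfl⟩
    have h1 : 0 ≤ (((u : qSubring K N) : FF K N) : LaurentSeries K).order := (u : qSubring K N).2
    have h2 : 0 ≤ ((((u⁻¹ : (qSubring K N)ˣ) : qSubring K N) : FF K N) : LaurentSeries K).order :=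
      ((u⁻¹ : (qSubring K N)ˣ) : qSubring K N).2
    have h3 : (((u : qSubring K N) : FF K N) : LaurentSeries K) *
        ((((u⁻¹ : (qSubring K N)ˣ) : qSubring K N) : FF K N) : LaurentSeries K) = 1 := by
      have := congrArg (fun x : qSubring K N => ((x : FF K N) : LaurentSeries K)) u.mul_inv
      exact this
    have hb0 : ((((u⁻¹ : (qSubring K N)ˣ) : qSubring K N) : FF K N) : LaurentSeries K) ≠ 0 :=
      right_ne_zero_of_mul_eq_one h3
    have h4 := qp_order_mul ha0' hb0
    rw [h3, HahnSeries.order_one] at h4
    omega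
  · intro h
    have hinv : (a : FF K N)⁻¹ ∈ qSubring K N := by
      rw [mem_qSubring, qp_coe_inv, qp_order_inv, h]; simp
    refine IsUnit.of_mul_eq_one (⟨(a : FF K N)⁻¹, hinv⟩ : qSubring K N) ?_
    apply Subtype.ext
    simp [mul_inv_cancel₀ ha0]

variable (K N) in
/-- the uniformizer `1/j`. -/
def qUnif : qSubring K N := ⟨(jF K N)⁻¹, by
  rw [mem_qSubring, qp_coe_inv, qp_order_inv, coe_jF, qp_order_jqModC]; simp⟩

theorem qp_order_qUnif : (((qUnif K N : qSubring K N) : FF K N) : LaurentSeries K).order = 1 := by
  show (((jF K N)⁻¹ : FF K N) : LaurentSeries K).order = 1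
  rw [qp_coe_inv, qp_order_inv, coe_jF, qp_order_jqModC]; simp

theorem qUnif_ne_zero : (qUnif K N : qSubring K N) ≠ 0 := by
  intro h
  have := qp_order_qUnif (K := K) (N := N)
  rw [h] at this
  simp at this

theorem qUnif_irreducible : Irreducible (qUnif K N) := by
  refine ⟨fun h => ?_, fun a b hab => ?_⟩
  · rw [qp_isUnit_iff _ qUnif_ne_zero, qp_order_qUnif] at h
    exact one_ne_zero h
  · have ha : a ≠ 0 := by
      rintro rfl
      exact qUnif_ne_zero (by rw [hab, zero_mul])
    have hb : b ≠ 0 := by
      rintro rfl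
      exact qUnif_ne_zero (by rw [hab, mul_zero])
    have ha0' : ((a : FF K N) : LaurentSeries K) ≠ 0 := by simpa using ha
    have hb0' : ((b : FF K N) : LaurentSeries K) ≠ 0 := by simpa using hb
    have h1 := qp_order_mul ha0' hb0'
    have h2 : ((a : FF K N) : LaurentSeries K) * ((b : FF K N) : LaurentSeries K) =
        (((qUnif K N : qSubring K N) : FF K N) : LaurentSeries K) := by
      rw [hab]; rfl
    rw [h2, qp_order_qUnif] at h1
    have h3 : 0 ≤ ((a : FF K N) : LaurentSeries K).order := a.2
    have h4 : 0 ≤ ((b : FF K N) : LaurentSeries K).order := b.2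
    rw [qp_isUnit_iff a ha, qp_isUnit_iff b hb]
    omega

theorem qp_hasFactorization :
    IsDiscreteValuationRing.HasUnitMulPowIrreducibleFactorization (qSubring K N) := by
  refine ⟨qUnif K N, qUnif_irreducible, fun {x} hx => ?_⟩
  have hx0' : ((x : FF K N) : LaurentSeries K) ≠ 0 := by simpa using hx
  have hx1 : 0 ≤ ((x : FF K N) : LaurentSeries K).order := x.2
  obtain ⟨m, hm⟩ := Int.eq_ofNat_of_zero_le hx1
  refine ⟨m, ?_⟩
  have hp0 : (qUnif K N : qSubring K N) ^ m ≠ 0 := pow_ne_zero _ qUnif_ne_zero
  have hpo : ((((qUnif K N : qSubring K N) ^ m : qSubring K N) : FF K N) :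
      LaurentSeries K).order = m := by
    have := qp_order_zpow (((qUnif K N : qSubring K N) : FF K N) : LaurentSeries K) (m : ℤ)
    rw [qp_order_qUnif, zpow_natCast, mul_one] at this
    exact this
  have hp0' : ((((qUnif K N : qSubring K N) ^ m : qSubring K N) : FF K N) :
      LaurentSeries K) ≠ 0 := by simpa using hp0
  -- the quotient
  have hq : (x : FF K N) * (((qUnif K N : qSubring K N) ^ m : qSubring K N) : FF K N)⁻¹ ∈
      qSubring K N := by
    rw [mem_qSubring, MulMemClass.coe_mul, qp_coe_inv, qp_order_mul hx0' (inv_ne_zero hp0'),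
      qp_order_inv, hpo, hm]
    simp
  set u : qSubring K N := ⟨_, hq⟩ with hu
  have hu0 : u ≠ 0 := by
    intro h
    have := congrArg (fun y : qSubring K N => (y : FF K N)) h
    simp only [hu, ZeroMemClass.coe_zero, mul_eq_zero, inv_eq_zero] at this
    rcases this with h | h
    · exact hx (by simpa using h)
    · exact hp0 (by exact_mod_cast Subtype.ext h)
  have huu : IsUnit u := by
    rw [qp_isUnit_iff u hu0]
    show ((x : FF K N) * (((qUnif K N : qSubring K N) ^ m : qSubring K N) : FF K N)⁻¹ : FF K N).1.order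
      = 0
    rw [show ((x : FF K N) * (((qUnif K N : qSubring K N) ^ m : qSubring K N) : FF K N)⁻¹ : FF K N).1
      = ((x : FF K N) : LaurentSeries K) *
        ((((qUnif K N : qSubring K N) ^ m : qSubring K N) : FF K N) : LaurentSeries K)⁻¹ from rfl,
      qp_order_mul hx0' (inv_ne_zero hp0'), qp_order_inv, hpo, hm]
    simp
  obtain ⟨w, hw⟩ := huu
  refine ⟨w, ?_⟩
  rw [hw]
  apply Subtype.ext
  have hp0F : (((qUnif K N : qSubring K N) ^ m : qSubring K N) : FF K N) ≠ 0 := by
    simpa using hp0
  show (((qUnif K N : qSubring K N) ^ m : qSubring K N) : FF K N) *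
    ((x : FF K N) * (((qUnif K N : qSubring K N) ^ m : qSubring K N) : FF K N)⁻¹) = x
  field_simp

variable (K N) in
/-- the `q`-adic place of `FF K N`. -/
def qPlace : Place K (FF K N) where
  toValuationSubring := qSubring K N
  algebraMap_mem' a := by
    rw [mem_qSubring]
    show (algebraMap K (LaurentSeries K) a).order ≥ 0
    rw [algebraMap_laurentSeries_eq_single]
    exact (HahnSeries.order_C (r := a)).ge
  ne_top' := by
    intro h
    have : jF K N ∈ qSubring K N := h ▸ ValuationSubring.mem_top _
    rw [mem_qSubring, coe_jF, qp_order_jqModC] at this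
    omega
  isPrincipalIdealRing' :=
    (IsDiscreteValuationRing.ofHasUnitMulPowIrreducibleFactorization
      qp_hasFactorization).toIsPrincipalIdealRing

theorem qPlace_ord (f : FF K N) : (qPlace K N).ord f = (f : LaurentSeries K).order := by
  rcases eq_or_ne f 0 with rfl | hf
  · simp
  have hπ : Irreducible (qUnif K N : (qPlace K N).toValuationSubring) := qUnif_irreducible
  obtain ⟨u, hu⟩ := (qPlace K N).exists_unit_mul_zpow hf hπ
  change (qSubring K N)ˣ at u
  have hu1 : IsUnit (u : qSubring K N) := u.isUnit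
  rw [qp_isUnit_iff _ u.ne_zero] at hu1
  have h : (f : LaurentSeries K).order = ((((u : qSubring K N) : FF K N) *
      ((qUnif K N : qSubring K N) : FF K N) ^ ((qPlace K N).ord f) : FF K N) :
        LaurentSeries K).order := congrArg (fun y : FF K N => (y : LaurentSeries K).order) hu
  have hu0 : (((u : qSubring K N) : FF K N) : LaurentSeries K) ≠ 0 := by
    have : (u : qSubring K N) ≠ 0 := u.ne_zero
    simp
  have hπ0 : (((qUnif K N : qSubring K N) : FF K N) : LaurentSeries K) ≠ 0 := by
    have := qUnif_ne_zero (K := K) (N := N)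
    simpa using this
  have e : ((((u : qSubring K N) : FF K N) * ((qUnif K N : qSubring K N) : FF K N) ^
      ((qPlace K N).ord f) : FF K N) : LaurentSeries K) =
      (((u : qSubring K N) : FF K N) : LaurentSeries K) *
        (((qUnif K N : qSubring K N) : FF K N) : LaurentSeries K) ^ ((qPlace K N).ord f) := by
    rw [MulMemClass.coe_mul]
    congr 1
  rw [e, qp_order_mul hu0 (zpow_ne_zero _ hπ0), hu1, qp_order_zpow, qp_order_qUnif] at h
  omega

/-- the `q`-adic valuation is a place of `FF K N` (uniformizer `1/j`). -/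
theorem dvd_order_of_isKummer {u : LaurentSeries K} (hu : IsKummer (N := N) n u) :
    (n : ℤ) ∣ u.order := by
  obtain ⟨-, hmem, h⟩ := hu
  have := h (qPlace K N)
  rwa [qPlace_ord] at this

end Fermat.Agent.GR.C
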