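import Fermat.Agent.GR.C.Basic
import Fermat.Agent.S24.Degree

/-!
# GR-C, piece FIN: `FF K N` is finite over `K(j)` (characteristic zero)
-/

set_option autoImplicit false
set_option linter.style.haveILetI false

noncomputable section

open ModularCurve AlgebraicCurve IntermediateField

namespace Fermat.Agent.GR.C

/-- Linear disjointness: a family of Laurent series over `K₁` which is linearly independent over
`K₁` stays so over any extension field `K₂`. -/
theorem finite_linearIndependent_coeffMap {K₁ K₂ : Type} [Field K₁] [Field K₂] (φ : K₁ →+* K₂)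
    {ι : Type} (v : ι → LaurentSeries K₁) (hv : LinearIndependent K₁ v) :
    LinearIndependent K₂ (fun i => coeffMap φ (v i)) := by
  classical
  let _ : Algebra K₁ K₂ := φ.toAlgebra
  let b := Module.Basis.ofVectorSpace K₁ K₂
  rw [linearIndependent_iff'] at hv ⊢
  intro s g hg i hi
  have key : ∀ k, ∀ i ∈ s, b.coord k (g i) = 0 := by
    intro k
    apply hv s (fun i => b.coord k (g i))
    ext n
    have h1 := congrArg (fun x => HahnSeries.coeff x n) hg
    simp only [HahnSeries.coeff_sum, HahnSeries.coeff_smul, ModularCurve.coeffMap_coeff,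
      HahnSeries.coeff_zero, smul_eq_mul] at h1 ⊢
    have h2 := congrArg (b.coord k) h1
    rw [map_sum, map_zero] at h2
    rw [← h2]
    apply Finset.sum_congr rfl
    intro i _
    have : g i * φ ((v i).coeff n) = ((v i).coeff n) • g i := by
      rw [Algebra.smul_def, mul_comm]; rfl
    rw [this, map_smul, smul_eq_mul, mul_comm]
  apply b.ext_elem
  intro k
  have := key k i hi
  simpa using this

/-- Descent of an algebraic relation between two Laurent series along a field extension. -/
theorem finite_descend_relation {K₁ K₂ : Type} [Field K₁] [Field K₂] (φ : K₁ →+* K₂)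
    (x y : LaurentSeries K₁) (n : ℕ) (P : Polynomial (Polynomial K₂)) (hP : P ≠ 0)
    (hdeg : P.natDegree ≤ n)
    (heval : Polynomial.eval₂ (Polynomial.eval₂RingHom (algebraMap K₂ (LaurentSeries K₂))
      (coeffMap φ x)) (coeffMap φ y) P = 0) :
    ∃ Q : Polynomial (Polynomial K₁), Q ≠ 0 ∧ Q.natDegree ≤ n ∧
      Polynomial.eval₂ (Polynomial.eval₂RingHom (algebraMap K₁ (LaurentSeries K₁)) x) y Q = 0 := by
  by_contra hcon
  push Not at hcon
  have hK := S24.degreeAux_linearIndependent_of (R := K₁) (S := LaurentSeries K₁) x y n (by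
    intro Q hQdeg hQ
    by_contra hQ0
    exact hcon Q hQ0 hQdeg hQ)
  rw [S24.degree_module_eq] at hK
  have hC := finite_linearIndependent_coeffMap φ _ hK
  rw [← S24.degree_module_eq] at hC
  have e : (fun i : ℕ × Fin (n + 1) => coeffMap φ (x ^ i.1 * y ^ (i.2 : ℕ))) = fun i =>
      (coeffMap φ x) ^ i.1 * (coeffMap φ y) ^ (i.2 : ℕ) := by
    funext i; simp
  rw [e] at hC
  exact hP (S24.degreeAux_eq_zero_of_linearIndependent _ _ _ hC P hdeg heval)

/-- The modular equation over `ℚ̄` (from S24). -/
theorem finite_relation_Kbar (d : ℕ) [NeZero d] :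
    ∃ P : Polynomial (Polynomial S24.Kbar), P ≠ 0 ∧
      Polynomial.eval₂ (Polynomial.eval₂RingHom (algebraMap S24.Kbar (LaurentSeries S24.Kbar))
        (coeffEmb S24.Kbar jq)) (coeffEmb S24.Kbar (qExpand ℚ d jq)) P = 0 := by
  obtain ⟨P, hP0, -, hP⟩ := S24.exists_annihilator_Kbar d (S24.jdA d d dvd_rfl)
  refine ⟨P, hP0, ?_⟩
  have h3 := Polynomial.hom_eval₂ P
    (Polynomial.eval₂RingHom (algebraMap S24.Kbar (S24.A1 d)) (S24.jA d))
    ((S24.A1 d).val : S24.A1 d →+* LaurentSeries S24.Kbar) (S24.jdA d d dvd_rfl)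
  rw [hP, map_zero] at h3
  have h2 : ((S24.A1 d).val : S24.A1 d →+* LaurentSeries S24.Kbar).comp
      (Polynomial.eval₂RingHom (algebraMap S24.Kbar (S24.A1 d)) (S24.jA d)) =
      Polynomial.eval₂RingHom (algebraMap S24.Kbar (LaurentSeries S24.Kbar))
        (coeffEmb S24.Kbar jq) := by
    apply Polynomial.ringHom_ext
    · intro c
      simp
    · simp
      rfl
  rw [h2] at h3
  exact h3.symm

/-- The modular equation over `ℚ`. -/
theorem finite_relation_rat (d : ℕ) [NeZero d] :
    ∃ Q : Polynomial (Polynomial ℚ), Q ≠ 0 ∧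
      Polynomial.eval₂ (Polynomial.eval₂RingHom (algebraMap ℚ (LaurentSeries ℚ)) (jqModC ℚ))
        (jqNModC ℚ d) Q = 0 := by
  obtain ⟨P, hP0, hP⟩ := finite_relation_Kbar d
  obtain ⟨Q, hQ0, -, hQ⟩ := finite_descend_relation (algebraMap ℚ S24.Kbar) jq (qExpand ℚ d jq)
    P.natDegree P hP0 le_rfl hP
  exact ⟨Q, hQ0, hQ⟩

/-- The modular equation over any field of characteristic zero. -/
theorem finite_relation (K : Type*) [Field K] [CharZero K] (d : ℕ) [NeZero d] :
    ∃ Q : Polynomial (Polynomial K), Q ≠ 0 ∧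
      Polynomial.eval₂ (Polynomial.eval₂RingHom (algebraMap K (LaurentSeries K)) (jqModC K))
        (jqNModC K d) Q = 0 := by
  obtain ⟨Q, hQ0, hQ⟩ := finite_relation_rat d
  let φ : ℚ →+* K := algebraMap ℚ K
  refine ⟨Q.map (Polynomial.mapRingHom φ), ?_, ?_⟩
  · exact (Polynomial.map_ne_zero_iff (Polynomial.map_injective φ φ.injective)).2 hQ0
  · rw [Polynomial.eval₂_map]
    have h3 := Polynomial.hom_eval₂ Q
      (Polynomial.eval₂RingHom (algebraMap ℚ (LaurentSeries ℚ)) (jqModC ℚ)) (coeffMap φ)
      (jqNModC ℚ d)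
    rw [hQ, map_zero, coeffMap_jqNModC] at h3
    have h2 : (coeffMap φ).comp
        (Polynomial.eval₂RingHom (algebraMap ℚ (LaurentSeries ℚ)) (jqModC ℚ)) =
        (Polynomial.eval₂RingHom (algebraMap K (LaurentSeries K)) (jqModC K)).comp
          (Polynomial.mapRingHom φ) := by
      apply Polynomial.ringHom_ext
      · intro c
        simp
      · simp [coeffMap_jqModC]
    rw [h2] at h3
    exact h3.symm

/-- `j` is transcendental over the constants. -/
theorem finite_transcendental_jqModC (K : Type*) [Field K] : Transcendental K (jqModC K) := by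
  rw [transcendental_iff]
  intro p hp
  by_contra hne
  have h := congrArg (fun f => HahnSeries.coeff f (-(p.natDegree : ℤ))) hp
  rw [Polynomial.aeval_eq_sum_range] at h
  simp only [HahnSeries.coeff_sum, HahnSeries.coeff_zero] at h
  rw [Finset.sum_eq_single p.natDegree] at h
  · rw [Algebra.smul_def, algebraMap_laurentSeries_eq_single, HahnSeries.single_zero_mul_eq_smul,
      HahnSeries.coeff_smul, coeff_jqModC_pow_self, smul_eq_mul, mul_one] at h
    exact hne (Polynomial.leadingCoeff_eq_zero.1 h)
  · intro i hi hin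
    have hlt : i < p.natDegree := lt_of_le_of_ne (Nat.lt_succ_iff.1 (Finset.mem_range.1 hi)) hin
    rw [Algebra.smul_def, algebraMap_laurentSeries_eq_single, HahnSeries.single_zero_mul_eq_smul,
      HahnSeries.coeff_smul, coeff_jqModC_pow_of_lt K (by omega), smul_zero]
  · intro h2
    exact absurd (Finset.mem_range.2 (Nat.lt_succ_self _)) h2

/-- `j(q^d)` is algebraic over `K(j)`. -/
theorem isAlgebraic_jqNModC (K : Type*) [Field K] [CharZero K] (d : ℕ) [NeZero d] :
    IsAlgebraic ↥(adjoin K {jqModC K}) (jqNModC K d) := by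
  obtain ⟨P, hP0, hPev⟩ := finite_relation K d
  let φ : Polynomial K →+* ↥(adjoin K {jqModC K}) :=
    (Polynomial.aeval (AdjoinSimple.gen K (jqModC K))).toRingHom
  have hφ : Function.Injective φ := by
    have h1 : Transcendental K (AdjoinSimple.gen K (jqModC K)) := by
      rw [← transcendental_algebraMap_iff
        (algebraMap ↥(adjoin K {jqModC K}) (LaurentSeries K)).injective,
        AdjoinSimple.algebraMap_gen]
      exact finite_transcendental_jqModC K
    exact transcendental_iff_injective.1 h1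
  have hQ0 : P.map φ ≠ 0 := (Polynomial.map_ne_zero_iff hφ).2 hP0
  refine ⟨P.map φ, hQ0, ?_⟩
  rw [Polynomial.aeval_def, Polynomial.eval₂_map]
  have h2 : (algebraMap ↥(adjoin K {jqModC K}) (LaurentSeries K)).comp φ =
      Polynomial.eval₂RingHom (algebraMap K (LaurentSeries K)) (jqModC K) := by
    apply Polynomial.ringHom_ext
    · intro c
      simp [φ]
    · have h4 : φ Polynomial.X = AdjoinSimple.gen K (jqModC K) := Polynomial.aeval_X _
      rw [RingHom.comp_apply, h4, AdjoinSimple.algebraMap_gen, Polynomial.coe_eval₂RingHom,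
        Polynomial.eval₂_X]
  rw [h2]
  exact hPev

theorem finite_divisorExpansionsC (K : Type*) [Field K] (N : ℕ) [NeZero N] :
    (divisorExpansionsC K N).Finite := by
  classical
  let f : ℕ → LaurentSeries K := fun d =>
    if h : d = 0 then 0 else (haveI : NeZero d := ⟨h⟩; qExpand K d (jqModC K))
  refine Set.Finite.subset ((N.divisors : Set ℕ).toFinite.image f) ?_
  rintro x ⟨d, hd, hdN, rfl⟩
  refine ⟨d, ?_, ?_⟩
  · simpa using ⟨hdN, NeZero.ne N⟩
  · simp only [f]
    rw [dif_neg (NeZero.ne d)]

/-- uniform bound for the degree over `K(j)` of the elements of the function field. -/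
theorem exists_natDegree_minpoly_le (K : Type*) [Field K] [CharZero K] (N : ℕ) [NeZero N] :
    ∃ μ : ℕ, ∀ y ∈ FF K N, IsIntegral ↥(adjoin K {jqModC K}) y ∧
      (minpoly ↥(adjoin K {jqModC K}) y).natDegree ≤ μ := by
  let E : IntermediateField ↥(adjoin K {jqModC K}) (LaurentSeries K) :=
    adjoin ↥(adjoin K {jqModC K}) (divisorExpansionsC K N)
  haveI : Finite (divisorExpansionsC K N) := (finite_divisorExpansionsC K N).to_subtype
  haveI : FiniteDimensional ↥(adjoin K {jqModC K}) E := by
    apply IntermediateField.finiteDimensional_adjoin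
    rintro x ⟨d, hd, hdN, rfl⟩
    exact (isAlgebraic_jqNModC K d).isIntegral
  have hle : FF K N ≤ E.restrictScalars K := by
    change adjoin K (divisorExpansionsC K N) ≤ _
    rw [adjoin_le_iff]
    intro x hx
    exact subset_adjoin ↥(adjoin K {jqModC K}) _ hx
  refine ⟨Module.finrank ↥(adjoin K {jqModC K}) E, fun y hy => ?_⟩
  have hyE : y ∈ E := hle hy
  have hint : IsIntegral ↥(adjoin K {jqModC K}) (⟨y, hyE⟩ : E) := IsIntegral.of_finite _ _
  refine ⟨(IntermediateField.isIntegral_iff (x := (⟨y, hyE⟩ : E))).1 hint, ?_⟩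
  rw [← IntermediateField.minpoly_eq (⟨y, hyE⟩ : E)]
  haveI : Module.Free ↥(adjoin K {jqModC K}) E := Module.Free.of_divisionRing _ _
  exact minpoly.natDegree_le _

end Fermat.Agent.GR.C
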