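import Fermat.Agent.GR.C.LinDisj
import Fermat.Agent.GR.C.Finite
import Fermat.Agent.S24.ZerosCore

/-! # GR-C, piece UP: extension of places with ramification index one -/

set_option autoImplicit false

noncomputable section

open ModularCurve AlgebraicCurve

namespace Fermat.Agent.GR.C

section MkPlace

variable {K F : Type*} [Field K] [Field F] [Algebra K F]

theorem placeUp_zpow_le_one {Γ : Type*} [LinearOrderedCommGroupWithZero Γ] {τ : Γ} (h0 : τ ≠ 0)
    (h1 : τ < 1) {m : ℤ} (h : τ ^ m ≤ 1) : 0 ≤ m := by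
  by_contra hm
  rw [not_le] at hm
  have h2 : 1 < τ ^ m := by
    have : τ ^ m = (τ ^ (-m))⁻¹ := by rw [zpow_neg, inv_inv]
    rw [this]
    obtain ⟨n, hn⟩ : ∃ n : ℕ, -m = (n : ℤ) := ⟨(-m).toNat, by omega⟩
    have hn0 : n ≠ 0 := by omega
    rw [hn, zpow_natCast]
    have h3 : τ ^ n < 1 := pow_lt_one₀ zero_le h1 hn0
    exact (one_lt_inv₀ (zero_lt_iff.2 (pow_ne_zero _ h0))).2 h3
  exact absurd h (not_le.2 h2)

theorem placeUp_zpow_eq_one {Γ : Type*} [LinearOrderedCommGroupWithZero Γ] {τ : Γ} (h0 : τ ≠ 0)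
    (h1 : τ < 1) {m : ℤ} (h : τ ^ m = 1) : m = 0 := by
  have h2 := placeUp_zpow_le_one h0 h1 h.le
  have h3 : τ ^ (-m) = 1 := by rw [zpow_neg, h, inv_one]
  have h4 := placeUp_zpow_le_one h0 h1 h3.le
  omega

/-- a valuation subring containing the constants in which every nonzero element is a power of a
fixed nonunit `t` times a unit is a place, and `ord` is the exponent. -/
theorem placeUp_mkPlace (W : ValuationSubring F) (hK : ∀ a : K, algebraMap K F a ∈ W) (t : F)
    (ht0 : t ≠ 0) (ht : W.valuation t < 1)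
    (h : ∀ x : F, x ≠ 0 → ∃ m : ℤ, W.valuation x = W.valuation t ^ m) :
    ∃ w : Place K F, w.toValuationSubring = W ∧
      ∀ (x : F) (m : ℤ), W.valuation x = W.valuation t ^ m → w.ord x = m := by
  set τ := W.valuation t with hτ
  have hτ0 : τ ≠ 0 := (Valuation.ne_zero_iff _).2 ht0
  have htW : t ∈ W := (W.valuation_le_one_iff t).1 ht.le
  let π : W := ⟨t, htW⟩
  have hunit : ∀ a : W, W.valuation (a : F) = 1 → IsUnit a := fun a ha =>
    (W.valuation_eq_one_iff a).2 ha
  have hfac : ∀ {x : W}, x ≠ 0 → ∃ n : ℕ, Associated (π ^ n) x := by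
    intro x hx
    have hx' : (x : F) ≠ 0 := fun h0 => hx (Subtype.ext h0)
    obtain ⟨m, hm⟩ := h x hx'
    have hm0 : 0 ≤ m := placeUp_zpow_le_one hτ0 ht (hm ▸ (W.valuation_le_one_iff _).2 x.2)
    obtain ⟨n, rfl⟩ : ∃ n : ℕ, m = (n : ℤ) := ⟨m.toNat, by omega⟩
    refine ⟨n, ?_⟩
    have hu : W.valuation ((x : F) * (t ^ n)⁻¹) = 1 := by
      rw [map_mul, map_inv₀, map_pow, hm, zpow_natCast, ← hτ,
        mul_inv_cancel₀ (pow_ne_zero _ hτ0)]
    have huW : (x : F) * (t ^ n)⁻¹ ∈ W := (W.valuation_le_one_iff _).1 hu.le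
    obtain ⟨u, hu'⟩ := hunit ⟨_, huW⟩ hu
    refine ⟨u, ?_⟩
    rw [hu']
    apply Subtype.ext
    show t ^ n * ((x : F) * (t ^ n)⁻¹) = x
    field_simp
  have hπu : ¬ IsUnit π := by
    intro hu
    have := (W.valuation_eq_one_iff π).1 hu
    exact ht.ne this
  have hirr : Irreducible π := by
    rw [irreducible_iff]
    refine ⟨hπu, ?_⟩
    intro a b hab
    have hπ0 : π ≠ 0 := fun h0 => ht0 (congrArg Subtype.val h0)
    have ha0 : a ≠ 0 := by rintro rfl; exact hπ0 (by rw [hab, zero_mul])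
    have hb0 : b ≠ 0 := by rintro rfl; exact hπ0 (by rw [hab, mul_zero])
    obtain ⟨n₁, u₁, h₁⟩ := hfac ha0
    obtain ⟨n₂, u₂, h₂⟩ := hfac hb0
    have hva : W.valuation (a : F) = τ ^ n₁ := by
      rw [← h₁]
      show W.valuation (t ^ n₁ * ((u₁ : W) : F)) = _
      rw [map_mul, map_pow, (W.valuation_eq_one_iff _).1 u₁.isUnit, mul_one]
    have hvb : W.valuation (b : F) = τ ^ n₂ := by
      rw [← h₂]
      show W.valuation (t ^ n₂ * ((u₂ : W) : F)) = _
      rw [map_mul, map_pow, (W.valuation_eq_one_iff _).1 u₂.isUnit, mul_one]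
    have h3 : τ = τ ^ n₁ * τ ^ n₂ := by
      rw [← hva, ← hvb, ← map_mul]
      exact congrArg (fun z : W => W.valuation (z : F)) hab
    have h4 : τ ^ (((n₁ + n₂ : ℕ) : ℤ) - 1) = 1 := by
      rw [zpow_sub₀ hτ0, zpow_natCast, zpow_one, pow_add, ← h3, div_self hτ0]
    have h5 := placeUp_zpow_eq_one hτ0 ht h4
    have h6 : n₁ = 0 ∨ n₂ = 0 := by omega
    rcases h6 with rfl | rfl
    · left
      exact hunit a (by rw [hva, pow_zero])
    · right
      exact hunit b (by rw [hvb, pow_zero])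
  have hdvr : IsDiscreteValuationRing W :=
    IsDiscreteValuationRing.ofHasUnitMulPowIrreducibleFactorization ⟨π, hirr, hfac⟩
  have hne : W ≠ ⊤ := by
    intro htop
    have : t⁻¹ ∈ W := by rw [htop]; exact ValuationSubring.mem_top _
    have h2 := (W.valuation_le_one_iff _).2 this
    rw [map_inv₀, ← hτ] at h2
    have h3 : 1 < τ⁻¹ := (one_lt_inv₀ (zero_lt_iff.2 hτ0)).2 ht
    exact absurd h2 (not_le.2 h3)
  let w : Place K F := ⟨W, hK, hne, inferInstance⟩
  refine ⟨w, rfl, ?_⟩
  intro x m hm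
  have hx0 : x ≠ 0 := by
    rintro rfl
    rw [map_zero] at hm
    exact zpow_ne_zero m hτ0 hm.symm
  have hu : W.valuation (x * (t ^ m)⁻¹) = 1 := by
    rw [map_mul, map_inv₀, map_zpow₀, hm, ← hτ, mul_inv_cancel₀ (zpow_ne_zero _ hτ0)]
  have huW : x * (t ^ m)⁻¹ ∈ W := (W.valuation_le_one_iff _).1 hu.le
  obtain ⟨u, hu'⟩ := hunit ⟨_, huW⟩ hu
  have hirr' : Irreducible (π : w.toValuationSubring) := hirr
  have key := w.ord_unit_smul_zpow u hirr' m
  have : ((u : w.toValuationSubring) : F) * ((π : F) ^ m) = x := by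
    rw [hu']
    show x * (t ^ m)⁻¹ * t ^ m = x
    rw [mul_assoc, inv_mul_cancel₀ (zpow_ne_zero _ ht0), mul_one]
  rw [this] at key
  exact key

end MkPlace

section Fin

variable (k : Type*) [Field k] (N : ℕ)

theorem placeUp_finite_divisorExpansionsC [NeZero N] : (divisorExpansionsC k N).Finite := by
  have h : divisorExpansionsC k N ⊆
      ⋃ d ∈ (N.divisors : Set ℕ), {x | ∃ _ : NeZero d, x = qExpand k d (jqModC k)} := by
    rintro x ⟨d, hd, hdN, rfl⟩
    simp only [Set.mem_iUnion]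
    exact ⟨d, by simpa using ⟨hdN, NeZero.ne N⟩, hd, rfl⟩
  refine Set.Finite.subset (Set.Finite.biUnion (Finset.finite_toSet _) ?_) h
  intro d _
  refine Set.Subsingleton.finite ?_
  rintro x ⟨_, rfl⟩ y ⟨_, rfl⟩
  rfl

theorem placeUp_essFiniteType [NeZero N] : Algebra.EssFiniteType k ↥(FF k N) :=
  IntermediateField.essFiniteType_iff.2
    (IntermediateField.fg_adjoin_of_finite (placeUp_finite_divisorExpansionsC k N))

theorem placeUp_map_adjoin :
    (IntermediateField.adjoin k {jF k N}).map (FF k N).val =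
      IntermediateField.adjoin k {jqModC k} := by
  rw [IntermediateField.adjoin_map, Set.image_singleton]
  rfl

theorem placeUp_isAlgebraic [CharZero k] [NeZero N] :
    Algebra.IsAlgebraic ↥(IntermediateField.adjoin k {jF k N}) ↥(FF k N) := by
  obtain ⟨μ, hμ⟩ := exists_natDegree_minpoly_le k N
  have hmem : ∀ a : ↥(IntermediateField.adjoin k {jF k N}),
      (((FF k N).val : ↥(FF k N) →+* LaurentSeries k).comp
        (algebraMap ↥(IntermediateField.adjoin k {jF k N}) ↥(FF k N))) a ∈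
        IntermediateField.adjoin k {jqModC k} := by
    intro a
    rw [← placeUp_map_adjoin]
    exact ⟨a.1, a.2, rfl⟩
  let ι : ↥(IntermediateField.adjoin k {jF k N}) →+* ↥(IntermediateField.adjoin k {jqModC k}) :=
    RingHom.codRestrict _ _ hmem
  have hsurj : Function.Surjective ι := by
    rintro ⟨c, hc⟩
    have hc' := hc
    rw [← placeUp_map_adjoin k N] at hc'
    obtain ⟨a, ha, hac⟩ := hc'
    exact ⟨⟨a, ha⟩, Subtype.ext hac⟩
  refine ⟨fun y => ?_⟩
  have h1 : IsAlgebraic ↥(IntermediateField.adjoin k {jqModC k})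
      (((FF k N).val : ↥(FF k N) →+* LaurentSeries k) y) := (hμ y.1 y.2).1.isAlgebraic
  exact h1.of_ringHom_of_comp_eq ι ((FF k N).val : ↥(FF k N) →+* LaurentSeries k) hsurj
    (FF k N).val.injective rfl

theorem placeUp_finite_of {K F : Type*} [Field K] [Field F] [Algebra K F] (x : F)
    (h1 : Algebra.EssFiniteType K F)
    (h2 : Algebra.IsAlgebraic ↥(IntermediateField.adjoin K {x}) F) :
    FiniteDimensional ↥(IntermediateField.adjoin K {x}) F := by
  have h3 : Algebra.EssFiniteType ↥(IntermediateField.adjoin K {x}) F := .of_comp K _ F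
  exact Algebra.finite_of_essFiniteType_of_isAlgebraic

theorem placeUp_finiteDimensional [CharZero k] [NeZero N] :
    FiniteDimensional ↥(IntermediateField.adjoin k {jF k N}) ↥(FF k N) :=
  placeUp_finite_of _ (placeUp_essFiniteType k N) (placeUp_isAlgebraic k N)

end Fin

section Up

variable {k Ω : Type*} [Field k] [Field Ω] [Algebra k Ω] {N n : ℕ}

open Fermat.Agent.S24.Zeros

/-- the residue field of a place of `FF k N` is `k` (`k` algebraically closed). -/
theorem exists_sub_mem_maximalIdeal [IsAlgClosed k] [CharZero k] [NeZero N]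
    (v : Place k (FF k N)) (f : FF k N) (hf : f ∈ v.toValuationSubring) :
    ∃ r : k, 0 < v.ord (f - algebraMap k (FF k N) r) ∨ f = algebraMap k (FF k N) r := by
  obtain ⟨π, hπ⟩ := IsDiscreteValuationRing.exists_irreducible v.toValuationSubring
  have hord : v.ord (π : FF k N) = 1 := v.ord_coe_irreducible hπ
  have ht : Transcendental k (π : FF k N) := by
    intro halg
    obtain ⟨c, hc⟩ := exists_algebraMap_eq_of_isAlgebraic halg
    rw [← hc, ord_algebraMap] at hord
    exact zero_ne_one hord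
  have hfin := finiteDimensional_adjoin_of_transcendental (placeUp_finiteDimensional k N) ht
  have hbij := residueField_bijective ht hfin v
  obtain ⟨r, hr⟩ := hbij.2 (IsLocalRing.residue _ ⟨f, hf⟩)
  refine ⟨r, ?_⟩
  have h1 : (⟨f, hf⟩ - algebraMap k v.toValuationSubring r : v.toValuationSubring) ∈
      IsLocalRing.maximalIdeal v.toValuationSubring := by
    rw [← IsLocalRing.residue_eq_zero_iff, map_sub, ← hr]
    exact sub_self _
  rw [mem_maximalIdeal_iff] at h1
  rcases h1 with h1 | h1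
  · right
    have := congrArg Subtype.val h1
    exact sub_eq_zero.1 this
  · left
    exact h1

theorem placeUp_coe_smul (d : Ω) (z : FF Ω N) (m : ℤ) :
    ((d • z : FF Ω N) : LaurentSeries Ω).coeff m = d * (z : LaurentSeries Ω).coeff m := by
  rw [IntermediateField.coe_smul, Algebra.smul_def, algebraMap_laurentSeries_eq_single,
    HahnSeries.coeff_single_zero_mul]

theorem placeUp_aux (v : Place k (FF k N)) (t : FF k N) (y : FF Ω N)
    (hy : y ∈ Submodule.span Ω
      ((bc N (algebraMap k Ω)) '' (v.toValuationSubring : Set (FF k N)))) :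
    ∀ lam : Ω →ₗ[k] k, ∃ h ∈ v.toValuationSubring,
      ((bc N (algebraMap k Ω) t * y : FF Ω N) : LaurentSeries Ω).map lam =
        ((t * h : FF k N) : LaurentSeries k) := by
  induction hy using Submodule.span_induction with
  | mem x hx =>
      obtain ⟨h0, hh0, rfl⟩ := hx
      intro lam
      refine ⟨algebraMap k (FF k N) (lam 1) * h0,
        mul_mem (v.algebraMap_mem' _) hh0, ?_⟩
      rw [← map_mul]
      ext m
      rw [HahnSeries.map_coeff, coe_bc, coeffMap_coeff]
      have h1 : (t * (algebraMap k (FF k N) (lam 1) * h0) : FF k N) = (lam 1) • (t * h0) := by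
        rw [Algebra.smul_def]; ring
      rw [h1, placeUp_coe_smul]
      have h2 : algebraMap k Ω (((t * h0 : FF k N) : LaurentSeries k).coeff m) =
          (((t * h0 : FF k N) : LaurentSeries k).coeff m) • (1 : Ω) := by
        rw [Algebra.smul_def, mul_one]
      rw [h2, map_smul, smul_eq_mul, mul_comm]
  | zero =>
      intro lam
      refine ⟨0, zero_mem _, ?_⟩
      ext m
      simp
  | add x y _ _ hx hy =>
      intro lam
      obtain ⟨h1, hh1, e1⟩ := hx lam
      obtain ⟨h2, hh2, e2⟩ := hy lam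
      refine ⟨h1 + h2, add_mem hh1 hh2, ?_⟩
      ext m
      have e1' := congrArg (fun z => HahnSeries.coeff z m) e1
      have e2' := congrArg (fun z => HahnSeries.coeff z m) e2
      simp only [HahnSeries.map_coeff] at e1' e2'
      rw [HahnSeries.map_coeff, mul_add, mul_add]
      show lam ((((bc N (algebraMap k Ω) t * x : FF Ω N) : LaurentSeries Ω) +
        ((bc N (algebraMap k Ω) t * y : FF Ω N) : LaurentSeries Ω)).coeff m) =
        (((t * h1 : FF k N) : LaurentSeries k) + ((t * h2 : FF k N) : LaurentSeries k)).coeff m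
      rw [HahnSeries.coeff_add, HahnSeries.coeff_add, map_add, e1', e2']
  | smul d x _ hx =>
      intro lam
      obtain ⟨h1, hh1, e1⟩ := hx (lam.comp (LinearMap.mulLeft k d))
      refine ⟨h1, hh1, ?_⟩
      rw [← e1]
      ext m
      rw [HahnSeries.map_coeff, HahnSeries.map_coeff, mul_smul_comm, placeUp_coe_smul]
      rfl

theorem placeUp_mul_ne_one (v : Place k (FF k N)) (t : FF k N) (ht : 0 < v.ord t) (y : FF Ω N)
    (hy : y ∈ Submodule.span Ω
      ((bc N (algebraMap k Ω)) '' (v.toValuationSubring : Set (FF k N)))) :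
    bc N (algebraMap k Ω) t * y ≠ 1 := by
  intro h1
  obtain ⟨lam, hlam⟩ := LinearMap.exists_leftInverse_of_injective (Algebra.linearMap k Ω)
    (LinearMap.ker_eq_bot.2 (algebraMap k Ω).injective)
  have hlam1 : lam 1 = 1 := by
    have := LinearMap.congr_fun hlam 1
    simpa using this
  obtain ⟨h, hh, e⟩ := placeUp_aux v t y hy lam
  rw [h1] at e
  have e2 : (t * h : FF k N) = 1 := by
    apply Subtype.ext
    rw [← e]
    ext m
    rw [HahnSeries.map_coeff]
    show lam ((1 : LaurentSeries Ω).coeff m) = (1 : LaurentSeries k).coeff m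
    rw [HahnSeries.coeff_one, HahnSeries.coeff_one]
    split_ifs
    · exact hlam1
    · exact map_zero _
  have ht0 : t ≠ 0 := by rintro rfl; simp at ht
  have hh0 : h ≠ 0 := by rintro rfl; simp at e2
  have h3 := v.ord_mul ht0 hh0
  rw [e2, v.ord_one] at h3
  have h4 := ord_nonneg_of_mem v hh
  omega

theorem placeUp_exists_W (v : Place k (FF k N)) (t : FF k N) (ht : 0 < v.ord t) :
    ∃ W : ValuationSubring (FF Ω N), (∀ a : Ω, algebraMap Ω (FF Ω N) a ∈ W) ∧
      (∀ h ∈ v.toValuationSubring, bc N (algebraMap k Ω) h ∈ W) ∧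
      W.valuation (bc N (algebraMap k Ω) t) < 1 := by
  set φ := bc N (algebraMap k Ω) with hφ
  let A0 : Subalgebra Ω (FF Ω N) := Algebra.adjoin Ω (φ '' (v.toValuationSubring : Set (FF k N)))
  have htm : t ∈ v.toValuationSubring := mem_of_ord_nonneg v ht.le
  let π0 : A0.toSubring := ⟨φ t, Algebra.subset_adjoin ⟨t, htm, rfl⟩⟩
  have hspan : ∀ y ∈ A0, y ∈ Submodule.span Ω (φ '' (v.toValuationSubring : Set (FF k N))) := by
    intro y hy
    have h1 : y ∈ Subalgebra.toSubmodule A0 := hy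
    rw [Algebra.adjoin_eq_span] at h1
    have h2 : (Submonoid.closure (φ '' (v.toValuationSubring : Set (FF k N))) : Set (FF Ω N)) =
        φ '' (v.toValuationSubring : Set (FF k N)) := by
      have : φ '' (v.toValuationSubring : Set (FF k N)) =
          ((v.toValuationSubring.toSubring.toSubmonoid.map (φ : FF k N →* FF Ω N) :
            Submonoid (FF Ω N)) : Set (FF Ω N)) := rfl
      rw [this, Submonoid.closure_eq]
    rwa [h2] at h1
  have hI : Ideal.span {π0} ≠ ⊤ := by
    intro h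
    rw [Ideal.span_singleton_eq_top] at h
    obtain ⟨y, hy⟩ := h.exists_right_inv
    exact placeUp_mul_ne_one v t ht y.1 (hspan _ y.2) (congrArg Subtype.val hy)
  obtain ⟨W, hW1, hW2⟩ := Ideal.image_subset_nonunits_valuationSubring _ hI
  refine ⟨W, fun a => hW1 (A0.algebraMap_mem a), fun h hh => hW1 (Algebra.subset_adjoin ⟨h, hh, rfl⟩),
    ?_⟩
  rw [← ValuationSubring.mem_nonunits_iff]
  exact hW2 ⟨π0, Ideal.subset_span rfl, rfl⟩

theorem placeUp_valuation_eq_one {F : Type*} [Field F] (W : ValuationSubring F) {x : F}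
    (hx0 : x ≠ 0) (hx : x ∈ W) (hx' : x⁻¹ ∈ W) : W.valuation x = 1 := by
  have h1 := (W.valuation_le_one_iff x).2 hx
  have h2 := (W.valuation_le_one_iff x⁻¹).2 hx'
  rw [map_inv₀] at h2
  have h0 : W.valuation x ≠ 0 := (Valuation.ne_zero_iff _).2 hx0
  refine le_antisymm h1 ?_
  exact (inv_le_one₀ (zero_lt_iff.2 h0)).1 h2

theorem placeUp_ring_aux {F : Type*} [Field F] (C T A τ H : F) :
    C * (T * (A + τ * H)) = T * (C * A + τ * (C * H)) := by ring

theorem placeUp_field_aux {F : Type*} [Field F] (fi T R t : F) (hT : T ≠ 0) (ht : t ≠ 0) :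
    fi = T * (R + t * ((fi * T⁻¹ - R) * t⁻¹)) := by
  field_simp
  ring

theorem placeUp_normal_form [IsAlgClosed k] [CharZero k] [NeZero N] (v : Place k (FF k N))
    (t : FF k N) (ht : v.ord t = 1) (W : ValuationSubring (FF Ω N))
    (hΩ : ∀ a : Ω, algebraMap Ω (FF Ω N) a ∈ W)
    (hO : ∀ h ∈ v.toValuationSubring, bc N (algebraMap k Ω) h ∈ W)
    (hW : W.valuation (bc N (algebraMap k Ω) t) < 1) {r : ℕ} (c : Fin r → Ω)
    (hc : LinearIndependent k c) (f : Fin r → FF k N) (hf : f ≠ 0) :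
    ∃ m : ℤ, W.valuation (∑ i, algebraMap Ω (FF Ω N) (c i) * bc N (algebraMap k Ω) (f i)) =
      W.valuation (bc N (algebraMap k Ω) t) ^ m := by
  classical
  set φ := bc N (algebraMap k Ω) with hφ
  have ht0 : t ≠ 0 := by rintro rfl; simp at ht
  have hs : (Finset.univ.filter fun i => f i ≠ 0).Nonempty := by
    by_contra hne
    rw [Finset.not_nonempty_iff_eq_empty, Finset.filter_eq_empty_iff] at hne
    apply hf
    funext i
    have := hne (Finset.mem_univ i)
    simpa using this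
  obtain ⟨i0, hi0, hmin⟩ := Finset.exists_min_image _ (fun i => v.ord (f i)) hs
  have hi0' : f i0 ≠ 0 := (Finset.mem_filter.1 hi0).2
  set m := v.ord (f i0) with hm
  refine ⟨m, ?_⟩
  have htm0 : t ^ m ≠ 0 := zpow_ne_zero _ ht0
  obtain ⟨ρ, h, hh, hfi, hρ0⟩ : ∃ (ρ : Fin r → k) (h : Fin r → FF k N),
      (∀ i, h i ∈ v.toValuationSubring) ∧
      (∀ i, f i = t ^ m * (algebraMap k (FF k N) (ρ i) + t * h i)) ∧ ρ i0 ≠ 0 := by
    have hordg : ∀ i, f i ≠ 0 → v.ord (f i * (t ^ m)⁻¹) = v.ord (f i) - m := by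
      intro i hi
      rw [v.ord_mul hi (inv_ne_zero htm0), v.ord_inv, v.ord_zpow, ht]
      ring
    have hg : ∀ i, f i * (t ^ m)⁻¹ ∈ v.toValuationSubring := by
      intro i
      apply mem_of_ord_nonneg
      by_cases hi : f i = 0
      · rw [hi, zero_mul, v.ord_zero]
      · rw [hordg i hi]
        have := hmin i (Finset.mem_filter.2 ⟨Finset.mem_univ _, hi⟩)
        omega
    choose ρ hρ using fun i => exists_sub_mem_maximalIdeal v (f i * (t ^ m)⁻¹) (hg i)
    refine ⟨ρ, fun i => (f i * (t ^ m)⁻¹ - algebraMap k (FF k N) (ρ i)) * t⁻¹, ?_, ?_, ?_⟩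
    · intro i
      apply mem_of_ord_nonneg
      show 0 ≤ v.ord ((f i * (t ^ m)⁻¹ - algebraMap k (FF k N) (ρ i)) * t⁻¹)
      rcases hρ i with h1 | h1
      · have h2 : f i * (t ^ m)⁻¹ - algebraMap k (FF k N) (ρ i) ≠ 0 := by
          intro h0
          rw [h0, v.ord_zero] at h1
          exact lt_irrefl _ h1
        rw [v.ord_mul h2 (inv_ne_zero ht0), v.ord_inv, ht]
        omega
      · rw [h1, sub_self, zero_mul, v.ord_zero]
    · intro i
      exact placeUp_field_aux _ _ _ _ htm0 ht0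
    · intro h0
      have hg0 : v.ord (f i0 * (t ^ m)⁻¹) = 0 := by rw [hordg i0 hi0']; omega
      have hgne : f i0 * (t ^ m)⁻¹ ≠ 0 := mul_ne_zero hi0' (inv_ne_zero htm0)
      rcases hρ i0 with h1 | h1
      · rw [h0, map_zero, sub_zero, hg0] at h1
        exact lt_irrefl _ h1
      · rw [h0, map_zero] at h1
        exact hgne h1
  set abar : Ω := ∑ i, c i * algebraMap k Ω (ρ i) with habar
  have habar0 : abar ≠ 0 := by
    intro h0
    have h1 : ∑ i, ρ i • c i = 0 := by
      rw [← h0, habar]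
      refine Finset.sum_congr rfl fun i _ => ?_
      rw [Algebra.smul_def, mul_comm]
    exact hρ0 (Fintype.linearIndependent_iff.1 hc ρ h1 i0)
  set Y : FF Ω N := ∑ i, algebraMap Ω (FF Ω N) (c i) * φ (h i) with hY
  have hYW : Y ∈ W := sum_mem fun i _ => mul_mem (hΩ _) (hO _ (hh i))
  have hsum : ∑ i, algebraMap Ω (FF Ω N) (c i) * φ (f i) =
      φ t ^ m * (algebraMap Ω (FF Ω N) abar + φ t * Y) := by
    rw [habar, hY, map_sum, Finset.mul_sum, ← Finset.sum_add_distrib, Finset.mul_sum]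
    refine Finset.sum_congr rfl fun i _ => ?_
    rw [hfi i, map_mul, map_zpow₀, map_add, map_mul, hφ, bc_algebraMap, map_mul]
    exact placeUp_ring_aux _ _ _ _ _
  have hV1 : W.valuation (algebraMap Ω (FF Ω N) abar) = 1 := by
    apply placeUp_valuation_eq_one W ((map_ne_zero _).2 habar0) (hΩ _)
    rw [← map_inv₀]
    exact hΩ _
  have hV2 : W.valuation (φ t * Y) < 1 := by
    rw [map_mul]
    exact mul_lt_one_of_lt_of_le hW ((W.valuation_le_one_iff Y).2 hYW)
  rw [hsum, map_mul, map_zpow₀, Valuation.map_add_eq_of_lt_left _ (by rw [hV1]; exact hV2), hV1,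
    mul_one]

theorem placeUp_coe_sum {r : ℕ} (c : Fin r → Ω) (f : Fin r → LaurentSeries k)
    (hf : ∀ i, f i ∈ FF k N) :
    ((∑ i, algebraMap Ω (FF Ω N) (c i) * bc N (algebraMap k Ω) ⟨f i, hf i⟩ : FF Ω N) :
      LaurentSeries Ω) = ∑ i, HahnSeries.C (c i) * coeffMap (algebraMap k Ω) (f i) := by
  rw [AddSubmonoidClass.coe_finsetSum]
  refine Finset.sum_congr rfl fun i _ => ?_
  rw [MulMemClass.coe_mul, coe_bc]
  congr 1
  show algebraMap Ω (LaurentSeries Ω) (c i) = _
  rw [algebraMap_laurentSeries_eq_single]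
  rfl

/-- (UP) every place of `FF k N` extends to a place of `FF Ω N` with ramification index one. -/
theorem exists_place_extend [IsAlgClosed k] [CharZero k] [NeZero N] (v : Place k (FF k N)) :
    ∃ w : Place Ω (FF Ω N), ∀ f : FF k N,
      w.ord (bc N (algebraMap k Ω) f) = v.ord f := by
  obtain ⟨π, hπ⟩ := IsDiscreteValuationRing.exists_irreducible v.toValuationSubring
  set t : FF k N := (π : FF k N) with ht
  have hord : v.ord t = 1 := v.ord_coe_irreducible hπ
  have ht0 : t ≠ 0 := by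
    intro h0
    rw [h0, v.ord_zero] at hord
    exact zero_ne_one hord
  obtain ⟨W, hΩ, hO, hW⟩ := placeUp_exists_W (Ω := Ω) v t (by omega)
  set φ := bc N (algebraMap k Ω) with hφ
  have hφt0 : φ t ≠ 0 := (map_ne_zero φ).2 ht0
  have hτ0 : W.valuation (φ t) ≠ 0 := (Valuation.ne_zero_iff _).2 hφt0
  have hall : ∀ x : FF Ω N, x ≠ 0 → ∃ m : ℤ, W.valuation x = W.valuation (φ t) ^ m := by
    intro x hx
    obtain ⟨r, c, f, g, hc, hf, hg, hb0, hxb⟩ := exists_repr k (N := N) x.2
    set a : FF Ω N := ∑ i, algebraMap Ω (FF Ω N) (c i) * φ ⟨f i, hf i⟩ with ha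
    set b : FF Ω N := ∑ i, algebraMap Ω (FF Ω N) (c i) * φ ⟨g i, hg i⟩ with hb
    have hb0' : b ≠ 0 := by
      intro h0
      apply hb0
      rw [← placeUp_coe_sum c g hg, ← hφ, ← hb, h0]
      rfl
    have hxb' : x * b = a := by
      apply Subtype.ext
      rw [MulMemClass.coe_mul, ha, hb, hφ, placeUp_coe_sum c g hg, placeUp_coe_sum c f hf]
      exact hxb
    have ha0 : a ≠ 0 := hxb' ▸ mul_ne_zero hx hb0'
    have hf0 : (fun i => (⟨f i, hf i⟩ : FF k N)) ≠ 0 := by
      intro h0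
      apply ha0
      rw [ha]
      refine Finset.sum_eq_zero fun i _ => ?_
      have : (⟨_, _⟩ : FF k N) = 0 := congrFun h0 i
      rw [this, map_zero, mul_zero]
    have hg0 : (fun i => (⟨g i, hg i⟩ : FF k N)) ≠ 0 := by
      intro h0
      apply hb0'
      rw [hb]
      refine Finset.sum_eq_zero fun i _ => ?_
      have : (⟨_, _⟩ : FF k N) = 0 := congrFun h0 i
      rw [this, map_zero, mul_zero]
    obtain ⟨m₁, hm₁⟩ := placeUp_normal_form v t hord W hΩ hO hW c hc _ hf0
    obtain ⟨m₂, hm₂⟩ := placeUp_normal_form v t hord W hΩ hO hW c hc _ hg0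
    refine ⟨m₁ - m₂, ?_⟩
    have h1 : W.valuation x * W.valuation b = W.valuation a := by rw [← map_mul, hxb']
    rw [ha, hb, hm₁, hm₂] at h1
    rw [zpow_sub₀ hτ0, eq_div_iff (zpow_ne_zero _ hτ0)]
    exact h1
  obtain ⟨w, -, hw⟩ := placeUp_mkPlace (K := Ω) W hΩ (φ t) hφt0 hW hall
  refine ⟨w, fun f => ?_⟩
  rcases eq_or_ne f 0 with rfl | hf
  · rw [map_zero, w.ord_zero, v.ord_zero]
  apply hw
  set m := v.ord f with hm
  have htm0 : t ^ m ≠ 0 := zpow_ne_zero _ ht0
  set u : FF k N := f * (t ^ m)⁻¹ with hu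
  have hu0 : u ≠ 0 := mul_ne_zero hf (inv_ne_zero htm0)
  have hordu : v.ord u = 0 := by
    rw [hu, v.ord_mul hf (inv_ne_zero htm0), v.ord_inv, v.ord_zpow, hord]
    ring
  have h1 : φ u ∈ W := hO _ (mem_of_ord_nonneg v hordu.ge)
  have h2 : (φ u)⁻¹ ∈ W := by
    rw [← map_inv₀]
    exact hO _ (mem_of_ord_nonneg v (by rw [v.ord_inv, hordu]; simp))
  have h3 := placeUp_valuation_eq_one W ((map_ne_zero φ).2 hu0) h1 h2
  have h4 : f = u * t ^ m := by
    rw [hu, mul_assoc, inv_mul_cancel₀ htm0, mul_one]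
  rw [h4, map_mul, map_mul, h3, one_mul, map_zpow₀, map_zpow₀]

/-- (C5') -/
theorem isKummer_of_coeffMap_algebraMap [IsAlgClosed k] [CharZero k] [NeZero N] {u : LaurentSeries k}
    (hu : IsKummer (N := N) n (coeffMap (algebraMap k Ω) u)) : IsKummer (N := N) n u := by
  obtain ⟨h0, hmem, hord⟩ := hu
  have hu0 : u ≠ 0 := by
    rintro rfl
    exact h0 (map_zero _)
  have hmem' : u ∈ FF k N := mem_FF_of_coeffMap_mem hmem
  refine ⟨hu0, hmem', fun v => ?_⟩
  obtain ⟨w, hw⟩ := exists_place_extend (Ω := Ω) v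
  rw [← hw]
  exact hord w

end Up

end Fermat.Agent.GR.C
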