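import Fermat.Agent.GR.C.Basic
import Fermat.Agent.S24.PlacesDedekind

/-!
# GR-C: PL-1, the place induced by an embedding into Laurent series
-/

set_option autoImplicit false

noncomputable section

open ModularCurve AlgebraicCurve IntermediateField

namespace Fermat.Agent.GR.C

/-- a valuation subring described by a surjective "order function" is a place. -/
theorem Place1_core {K F : Type*} [Field K] [Field F] [Algebra K F] (A : ValuationSubring F)
    (o : F → ℤ) (o_one : o 1 = 0)
    (o_mul : ∀ {f g : F}, f ≠ 0 → g ≠ 0 → o (f * g) = o f + o g)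
    (memA : ∀ f : F, f ≠ 0 → (f ∈ A ↔ 0 ≤ o f)) (hK : ∀ a : K, algebraMap K F a ∈ A)
    (t : F) (ht0 : t ≠ 0) (ht : o t = 1) :
    ∃ v : Place K F, v.toValuationSubring = A ∧ ∀ f : F, f ≠ 0 → v.ord f = o f := by
  classical
  have o_inv : ∀ f : F, f ≠ 0 → o f⁻¹ = - o f := by
    intro f hf
    have := o_mul hf (inv_ne_zero hf)
    rw [mul_inv_cancel₀ hf, o_one] at this
    omega
  have o_pow : ∀ (n : ℕ), o (t ^ n) = n := by
    intro n
    induction n with
    | zero => simpa using o_one
    | succ n ih => rw [pow_succ, o_mul (pow_ne_zero _ ht0) ht0, ih, ht]; push_cast; ring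
  have o_zpow : ∀ (n : ℤ), o (t ^ n) = n := by
    intro n
    obtain ⟨m, rfl | rfl⟩ := n.eq_nat_or_neg
    · rw [zpow_natCast, o_pow]
    · rw [zpow_neg, zpow_natCast, o_inv _ (pow_ne_zero _ ht0), o_pow]
  have htA : t ∈ A := (memA t ht0).2 (by rw [ht]; exact zero_le_one)
  set τ : A := ⟨t, htA⟩ with hτ
  have unitA : ∀ a : A, o (a : F) = 0 → a ≠ 0 → IsUnit a := by
    intro a ha ha0
    have haF : (a : F) ≠ 0 := by simpa using ha0
    have hinv : (a : F)⁻¹ ∈ A := (memA _ (inv_ne_zero haF)).2 (by rw [o_inv _ haF, ha]; simp)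
    exact IsUnit.of_mul_eq_one ⟨(a : F)⁻¹, hinv⟩ (Subtype.ext (mul_inv_cancel₀ haF))
  have o_unit : ∀ a : A, IsUnit a → o (a : F) = 0 := by
    intro a ha
    obtain ⟨b, hb⟩ := ha.exists_right_inv
    have hbF : (a : F) * (b : F) = 1 := congrArg Subtype.val hb
    have ha0 : (a : F) ≠ 0 := left_ne_zero_of_mul_eq_one hbF
    have hb0 : (b : F) ≠ 0 := right_ne_zero_of_mul_eq_one hbF
    have h1 : o ((a : F) * (b : F)) = 0 := by rw [hbF]; exact o_one
    rw [o_mul ha0 hb0] at h1
    have h2 := (memA _ ha0).1 a.2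
    have h3 := (memA _ hb0).1 b.2
    omega
  have hτirr : Irreducible τ := by
    refine ⟨fun hu => ?_, fun a b hab => ?_⟩
    · have := o_unit τ hu
      simp only [hτ] at this
      omega
    · have habF : t = (a : F) * (b : F) := congrArg Subtype.val hab
      have ha0 : (a : F) ≠ 0 := fun h => ht0 (by rw [habF, h, zero_mul])
      have hb0 : (b : F) ≠ 0 := fun h => ht0 (by rw [habF, h, mul_zero])
      have h1 : o (a : F) + o (b : F) = 1 := by rw [← o_mul ha0 hb0, ← habF, ht]
      have h2 := (memA _ ha0).1 a.2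
      have h3 := (memA _ hb0).1 b.2
      rcases (show o (a : F) = 0 ∨ o (b : F) = 0 by omega) with h | h
      · left
        exact unitA a h (by simpa using ha0)
      · right
        exact unitA b h (by simpa using hb0)
  have hfact : IsDiscreteValuationRing.HasUnitMulPowIrreducibleFactorization A := by
    refine ⟨τ, hτirr, ?_⟩
    intro x hx
    have hxF : (x : F) ≠ 0 := by simpa using hx
    have hx0 := (memA _ hxF).1 x.2
    set m := o (x : F) with hm
    refine ⟨m.toNat, ?_⟩
    have hpow : o (t ^ m.toNat) = m := by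
      rw [o_pow, Int.toNat_of_nonneg hx0]
    have hu : o ((x : F) * (t ^ m.toNat)⁻¹) = 0 := by
      rw [o_mul hxF (inv_ne_zero (pow_ne_zero _ ht0)), o_inv _ (pow_ne_zero _ ht0), hpow, ← hm]
      ring
    have hne : (x : F) * (t ^ m.toNat)⁻¹ ≠ 0 := mul_ne_zero hxF (inv_ne_zero (pow_ne_zero _ ht0))
    have huA : (x : F) * (t ^ m.toNat)⁻¹ ∈ A := (memA _ hne).2 hu.ge
    have hunit : IsUnit (⟨_, huA⟩ : A) := unitA ⟨_, huA⟩ hu (by
      intro h
      exact hne (congrArg Subtype.val h))
    refine ⟨hunit.unit, Subtype.ext ?_⟩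
    simp only [IsUnit.unit_spec, MulMemClass.coe_mul, SubmonoidClass.coe_pow, hτ]
    field_simp
  have : IsDiscreteValuationRing A :=
    IsDiscreteValuationRing.ofHasUnitMulPowIrreducibleFactorization hfact
  have hne_top : A ≠ ⊤ := by
    intro h
    have h1 : t⁻¹ ∈ A := by rw [h]; exact ValuationSubring.mem_top _
    have := (memA _ (inv_ne_zero ht0)).1 h1
    rw [o_inv _ ht0, ht] at this
    omega
  let v : Place K F :=
    { toValuationSubring := A
      algebraMap_mem' := hK
      ne_top' := hne_top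
      isPrincipalIdealRing' := inferInstance }
  refine ⟨v, rfl, fun f hf => ?_⟩
  obtain ⟨u, hu⟩ := v.exists_unit_mul_zpow hf (π := τ) hτirr
  have hu0 : ((u : v.toValuationSubring) : F) ≠ 0 := by
    simp [ne_eq, ZeroMemClass.coe_eq_zero]
  conv_rhs => rw [hu]
  rw [o_mul hu0 (zpow_ne_zero _ ht0), o_zpow, o_unit _ u.isUnit, zero_add]

/-- the valuation subring `{f | 0 ≤ order (φ f)}`. -/
def Place1_sub {Ω F : Type*} [Field Ω] [Field F] (φ : F →+* LaurentSeries Ω) :
    ValuationSubring F where
  carrier := {f | 0 ≤ (φ f).order}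
  mul_mem' := by
    intro a b ha hb
    simp only [Set.mem_ofPred_eq] at *
    rcases eq_or_ne a 0 with rfl | ha0
    · simp
    rcases eq_or_ne b 0 with rfl | hb0
    · simp
    rw [map_mul, HahnSeries.order_mul ((map_ne_zero φ).2 ha0) ((map_ne_zero φ).2 hb0)]
    omega
  one_mem' := by simp
  add_mem' := by
    intro a b ha hb
    simp only [Set.mem_ofPred_eq] at *
    rcases eq_or_ne (a + b) 0 with h | h
    · rw [h]; simp
    have h' : φ a + φ b ≠ 0 := by rw [← map_add]; exact (map_ne_zero φ).2 h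
    have := HahnSeries.min_order_le_order_add h'
    rw [map_add]
    exact le_trans (le_min ha hb) this
  zero_mem' := by simp
  neg_mem' := by
    intro a ha
    simp only [Set.mem_ofPred_eq] at *
    rwa [map_neg, HahnSeries.order_neg]
  mem_or_inv_mem' := by
    intro a
    simp only [Set.mem_ofPred_eq]
    rcases eq_or_ne a 0 with rfl | ha0
    · simp
    have h := HahnSeries.order_mul ((map_ne_zero φ).2 ha0) ((map_ne_zero φ).2 (inv_ne_zero ha0))
    rw [← map_mul, mul_inv_cancel₀ ha0, map_one, HahnSeries.order_one] at h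
    omega

theorem Place1_mem_sub {Ω F : Type*} [Field Ω] [Field F] (φ : F →+* LaurentSeries Ω) (f : F) :
    f ∈ Place1_sub φ ↔ 0 ≤ (φ f).order := Iff.rfl

/-- universe polymorphic version of PL-1, with the degree. -/
theorem Place1_aux {Ω F : Type*} [Field Ω] [Field F] [Algebra Ω F]
    (φ : F →+* LaurentSeries Ω) (hφ : ∀ c : Ω, φ (algebraMap Ω F c) = HahnSeries.C c)
    (π : F) (hπ : (φ π).order = 1) :
    ∃ v : Place Ω F, (∀ f : F, v.ord f = (φ f).order) ∧ v.deg = 1 := by
  have hπ0 : π ≠ 0 := by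
    rintro rfl
    simp at hπ
  obtain ⟨v, hvA, hv⟩ := Place1_core (K := Ω) (Place1_sub φ) (fun f => (φ f).order) (by simp)
    (fun {f g} hf hg => by
      simp only [map_mul]
      exact HahnSeries.order_mul ((map_ne_zero φ).2 hf) ((map_ne_zero φ).2 hg))
    (fun f _ => Place1_mem_sub φ f)
    (fun a => by rw [Place1_mem_sub, hφ, HahnSeries.order_C]) π hπ0 hπ
  refine ⟨v, fun f => ?_, ?_⟩
  · rcases eq_or_ne f 0 with rfl | hf
    · simp
    · exact hv f hf
  · -- degree one
    unfold Place.deg
    rw [finrank_eq_one_iff_of_nonzero' (1 : v.ResidueField) one_ne_zero]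
    intro x
    obtain ⟨a, rfl⟩ := IsLocalRing.residue_surjective x
    refine ⟨(φ (a : F)).coeff 0, ?_⟩
    rw [Algebra.smul_def, mul_one,
      IsScalarTower.algebraMap_apply Ω v.toValuationSubring v.ResidueField,
      IsLocalRing.ResidueField.algebraMap_eq, ← sub_eq_zero, ← map_sub,
      IsLocalRing.residue_eq_zero_iff, IsLocalRing.mem_maximalIdeal, mem_nonunits_iff]
    set c := (φ (a : F)).coeff 0 with hc
    set d : v.toValuationSubring := algebraMap Ω v.toValuationSubring c - a with hd
    intro hunit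
    have hd0 : d ≠ 0 := hunit.ne_zero
    have hdF : (d : F) ≠ 0 := by simpa using hd0
    have hord : v.ord (d : F) = 0 := (Fermat.Agent.S24.Zeros.isUnit_iff_ord_eq_zero v hd0).1 hunit
    rw [hv _ hdF] at hord
    have hcoe : φ (d : F) = HahnSeries.C c - φ (a : F) := by
      rw [hd]
      simp only [AddSubgroupClass.coe_sub, Place.coe_algebraMap, map_sub, hφ]
    have hz : (φ (d : F)).coeff 0 = 0 := by
      rw [hcoe, HahnSeries.coeff_sub, HahnSeries.C_apply, HahnSeries.coeff_single_same, hc, sub_self]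
    have hne : φ (d : F) ≠ 0 := (map_ne_zero φ).2 hdF
    rw [← hord] at hz
    exact hne (HahnSeries.coeff_order_eq_zero.1 hz)

/-- PL-1. A field embedding `φ : F → Ω((t))` over `Ω` whose value group is all of `ℤ` induces a
place of `F` with `ord = order ∘ φ`. -/
theorem exists_place_of_hom {Ω F : Type} [Field Ω] [Field F] [Algebra Ω F]
    (φ : F →+* LaurentSeries Ω) (hφ : ∀ c : Ω, φ (algebraMap Ω F c) = HahnSeries.C c)
    (π : F) (hπ : (φ π).order = 1) :
    ∃ v : Place Ω F, ∀ f : F, v.ord f = (φ f).order := by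
  obtain ⟨v, hv, -⟩ := Place1_aux φ hφ π hπ
  exact ⟨v, hv⟩

/-- universe polymorphic version of PL-1', with the degree. -/
theorem Place1_inf {Ω : Type*} [Field Ω]
    {F : IntermediateField Ω (LaurentSeries Ω)} {x : F}
    (hord : (x : LaurentSeries Ω).order = -1) :
    ∃ v : Place Ω F, (∀ f : F, v.ord f = (f : LaurentSeries Ω).order) ∧ v.deg = 1 := by
  have hx0 : x ≠ 0 := by
    rintro rfl
    simp at hord
  have hxL : (x : LaurentSeries Ω) ≠ 0 := by simpa using hx0
  refine Place1_aux (F.val : F →+* LaurentSeries Ω) (fun c => ?_) x⁻¹ ?_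
  · change algebraMap Ω (LaurentSeries Ω) c = HahnSeries.C c
    rw [algebraMap_laurentSeries_eq_single]
    rfl
  · change ((x⁻¹ : F) : LaurentSeries Ω).order = 1
    have h := HahnSeries.order_mul hxL (inv_ne_zero hxL)
    rw [mul_inv_cancel₀ hxL, HahnSeries.order_one, hord] at h
    push_cast
    omega

/-- PL-1'. The place `q = 0`. -/
theorem exists_infPlace {Ω : Type} [Field Ω]
    {F : IntermediateField Ω (LaurentSeries Ω)} {x : F}
    (hord : (x : LaurentSeries Ω).order = -1) :
    ∃ v : Place Ω F, ∀ f : F, v.ord f = (f : LaurentSeries Ω).order := by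
  obtain ⟨v, hv, -⟩ := Place1_inf hord
  exact ⟨v, hv⟩

end Fermat.Agent.GR.C
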