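import Fermat.Agent.GR.C.Basic

/-!
# GR-C: `F_K` is a function field in one variable
-/

set_option autoImplicit false
set_option synthInstance.maxHeartbeats 400000

noncomputable section

open ModularCurve AlgebraicCurve IntermediateField

namespace Fermat.Agent.GR.C

/-- FD-1. -/
theorem order_jF (K : Type*) [Field K] (N : ℕ) :
    ((jF K N : FF K N) : LaurentSeries K).order = -1 := by
  rw [coe_jF]
  have h1 : (jqModC K).coeff (-1 : ℤ) ≠ 0 := by
    rw [coeff_jqModC_neg_one]; exact one_ne_zero
  apply le_antisymm (HahnSeries.order_le_of_coeff_ne_zero h1)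
  by_contra hlt
  rw [not_le] at hlt
  have h0 : jqModC K ≠ 0 := jqModC_ne_zero_of_nontrivial K
  exact h0 (HahnSeries.coeff_order_eq_zero.1 (coeff_jqModC_of_lt K hlt))

theorem FinDim_coeff_smul {K : Type*} [Field K] (r : K) (x : LaurentSeries K) (n : ℤ) :
    (algebraMap K (LaurentSeries K) r * x).coeff n = r * x.coeff n := by
  rw [algebraMap_laurentSeries_eq_single, HahnSeries.coeff_single_zero_mul]

theorem FinDim_coeff_aeval (K : Type*) [Field K] (p : Polynomial K) :
    (Polynomial.aeval (jqModC K) p).coeff (-(p.natDegree : ℤ)) = p.leadingCoeff := by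
  rw [Polynomial.aeval_def, Polynomial.eval₂_eq_sum_range, HahnSeries.coeff_sum,
    Finset.sum_range_succ]
  rw [Finset.sum_eq_zero, zero_add, FinDim_coeff_smul, coeff_jqModC_pow_self, mul_one]
  rfl
  intro i hi
  rw [FinDim_coeff_smul, coeff_jqModC_pow_of_lt K, mul_zero]
  have := Finset.mem_range.mp hi
  omega

/-- FD-2. -/
theorem transcendental_jF (K : Type*) [Field K] (N : ℕ) : Transcendental K (jF K N) := by
  rw [transcendental_iff]
  intro p hp
  have h1 : Polynomial.aeval (jqModC K) p = 0 := by
    have h := Polynomial.aeval_algHom_apply (FF K N).val (jF K N) p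
    rw [hp, map_zero] at h
    exact h
  have h2 := FinDim_coeff_aeval K p
  rw [h1, HahnSeries.coeff_zero] at h2
  exact Polynomial.leadingCoeff_eq_zero.mp h2.symm

section FD3

variable {K Ω : Type*} [Field K] [Field Ω] (φ : K →+* Ω) (N : ℕ)

theorem FinDim_bc_mem {c : FF K N} (hc : c ∈ IntermediateField.adjoin K {jF K N}) :
    bc N φ c ∈ IntermediateField.adjoin Ω {jF Ω N} := by
  induction hc using IntermediateField.adjoin_induction with
  | mem x hx =>
    rw [Set.mem_singleton_iff] at hx
    rw [hx, bc_jF]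
    exact IntermediateField.subset_adjoin _ _ (Set.mem_singleton _)
  | algebraMap a =>
    rw [bc_algebraMap]
    exact IntermediateField.algebraMap_mem _ _
  | add x y _ _ hx hy => rw [map_add]; exact add_mem hx hy
  | inv x _ hx => rw [map_inv₀]; exact inv_mem hx
  | mul x y _ _ hx hy => rw [map_mul]; exact mul_mem hx hy

/-- the restriction of `bc` to `K(j) → Ω(j)`. -/
def FinDim_bcJ : IntermediateField.adjoin K {jF K N} →+* IntermediateField.adjoin Ω {jF Ω N} where
  toFun c := ⟨bc N φ c, FinDim_bc_mem φ N c.2⟩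
  map_one' := Subtype.ext (map_one (bc N φ))
  map_mul' _ _ := Subtype.ext (map_mul (bc N φ) _ _)
  map_zero' := Subtype.ext (map_zero (bc N φ))
  map_add' _ _ := Subtype.ext (map_add (bc N φ) _ _)

theorem FinDim_isIntegral_bc {b : FF K N}
    (hb : IsIntegral (IntermediateField.adjoin K {jF K N}) b) :
    IsIntegral (IntermediateField.adjoin Ω {jF Ω N}) (bc N φ b) :=
  IsIntegral.map_of_comp_eq (FinDim_bcJ φ N) (bc N φ) (RingHom.ext fun _ => rfl) hb

end FD3

set_option maxHeartbeats 1000000 in
/-- FD-3. Base change of finiteness. -/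
theorem finiteDimensional_FF_of {K Ω : Type*} [Field K] [Field Ω] [Algebra K Ω] (N : ℕ)
    (h : FiniteDimensional (IntermediateField.adjoin K {jF K N}) (FF K N)) :
    FiniteDimensional (IntermediateField.adjoin Ω {jF Ω N}) (FF Ω N) := by
  set φ : K →+* Ω := algebraMap K Ω with hφ
  obtain ⟨m, s, hs⟩ := Module.Finite.exists_fin (R := IntermediateField.adjoin K {jF K N})
    (M := FF K N)
  set E := IntermediateField.adjoin Ω {jF Ω N} with hE
  set S : Set (FF Ω N) := Set.range fun i : Fin m => bc N φ (s i) with hS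
  have hfinS : Finite S := Set.finite_range _
  have hint : ∀ x ∈ S, IsIntegral E x := by
    rintro _ ⟨i, rfl⟩
    exact FinDim_isIntegral_bc φ N (Algebra.IsIntegral.isIntegral (s i))
  have hfd : FiniteDimensional E (IntermediateField.adjoin E S) :=
    IntermediateField.finiteDimensional_adjoin hint
  have hbc : ∀ x : FF K N, bc N φ x ∈ IntermediateField.adjoin E S := by
    intro x
    have hx : x ∈ Submodule.span (IntermediateField.adjoin K {jF K N}) (Set.range s) := by
      rw [hs]; trivial
    obtain ⟨c, rfl⟩ := (Submodule.mem_span_range_iff_exists_fun _).mp hx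
    rw [map_sum]
    refine sum_mem fun i _ => ?_
    rw [Algebra.smul_def, map_mul]
    refine mul_mem ?_ (IntermediateField.subset_adjoin _ _ ⟨i, rfl⟩)
    exact IntermediateField.algebraMap_mem _ (FinDim_bcJ φ N (c i))
  have htop : IntermediateField.adjoin E S = ⊤ := by
    rw [eq_top_iff]
    rintro ⟨u, hu⟩ -
    induction hu using IntermediateField.adjoin_induction with
    | mem x hx =>
      obtain ⟨d, hd, hdN, rfl⟩ := hx
      have h1 := hbc ⟨qExpand K d (jqModC K), jqModCd_mem_full K N hdN⟩
      have h2 : bc N φ ⟨qExpand K d (jqModC K), jqModCd_mem_full K N hdN⟩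
          = ⟨qExpand Ω d (jqModC Ω), jqModCd_mem_full Ω N hdN⟩ := by
        apply Subtype.ext
        rw [coe_bc, coeffMap_qExpand, coeffMap_jqModC]
      rw [h2] at h1
      exact h1
    | algebraMap a =>
      exact IntermediateField.algebraMap_mem _ (algebraMap Ω E a)
    | add x y hx' hy' hx hy =>
      have h1 : (⟨x + y, add_mem hx' hy'⟩ : FF Ω N) = ⟨x, hx'⟩ + ⟨y, hy'⟩ :=
        Subtype.ext (by rw [IntermediateField.coe_add])
      rw [h1]
      exact add_mem hx hy
    | inv x hx' hx =>
      have h1 : (⟨x⁻¹, inv_mem hx'⟩ : FF Ω N) = (⟨x, hx'⟩ : FF Ω N)⁻¹ :=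
        Subtype.ext (by rw [IntermediateField.coe_inv])
      rw [h1]
      exact inv_mem hx
    | mul x y hx' hy' hx hy =>
      have h1 : (⟨x * y, mul_mem hx' hy'⟩ : FF Ω N) = ⟨x, hx'⟩ * ⟨y, hy'⟩ :=
        Subtype.ext (by rw [IntermediateField.coe_mul])
      rw [h1]
      exact mul_mem hx hy
  rw [htop] at hfd
  exact Module.Finite.equiv (IntermediateField.topEquiv (F := E) (E := FF Ω N)).toLinearEquiv

end Fermat.Agent.GR.C
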