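import Fermat.Agent.GR.C.LinDisj
import Fermat.Agent.Lib.AutExt

/-!
# GR-C: RT-1..3, descent of `n`-th roots
-/

set_option autoImplicit false

noncomputable section

open ModularCurve AlgebraicCurve IntermediateField

namespace Fermat.Agent.GR.C

variable {K Ω : Type} [Field K] [Field Ω] [Algebra K Ω]

/-- a series all of whose coefficients come from `K` comes from `K((q))`. -/
theorem Root_exists_of_coeff_mem (f : LaurentSeries Ω)
    (h : ∀ m : ℤ, f.coeff m ∈ Set.range (algebraMap K Ω)) :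
    ∃ f₀ : LaurentSeries K, coeffMap (algebraMap K Ω) f₀ = f := by
  choose c hc using h
  refine ⟨⟨c, f.isPWO_support.mono ?_⟩, ?_⟩
  · intro m hm
    simp only [Function.mem_support, ne_eq] at hm ⊢
    intro h0
    apply hm
    have h1 := hc m
    rw [h0] at h1
    exact (map_eq_zero (algebraMap K Ω)).mp h1
  · ext m
    exact hc m

/-- RT-1. A Laurent series over `Ω` with finite orbit under `Aut(Ω/K)` has coefficients in `K`. -/
theorem exists_coeffMap_eq_of_finite_orbit [IsAlgClosed K] [CharZero K] [IsAlgClosed Ω]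
    (f : LaurentSeries Ω)
    (h : (Set.range fun σ : Ω ≃ₐ[K] Ω => coeffMap (σ : Ω →+* Ω) f).Finite) :
    ∃ f₀ : LaurentSeries K, coeffMap (algebraMap K Ω) f₀ = f := by
  apply Root_exists_of_coeff_mem
  intro m
  apply Fermat.Agent.Lib.AutExt.mem_range_algebraMap_of_finite_orbit
  refine (h.image (fun g : LaurentSeries Ω => g.coeff m)).subset ?_
  rintro _ ⟨σ, rfl⟩
  exact ⟨_, ⟨σ, rfl⟩, rfl⟩

/-- RT-2. An `n`-th root of a series with coefficients in `K` has coefficients in `K`. -/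
theorem exists_coeffMap_eq_of_pow [IsAlgClosed K] [CharZero K] [IsAlgClosed Ω] {n : ℕ} (hn : 0 < n)
    (z : LaurentSeries Ω) (y : LaurentSeries K) (h : z ^ n = coeffMap (algebraMap K Ω) y) :
    ∃ z₀ : LaurentSeries K, coeffMap (algebraMap K Ω) z₀ = z := by
  apply exists_coeffMap_eq_of_finite_orbit
  refine (Multiset.finite_toSet (Polynomial.nthRoots n (coeffMap (algebraMap K Ω) y))).subset ?_
  rintro _ ⟨σ, rfl⟩
  show _ ∈ Polynomial.nthRoots n (coeffMap (algebraMap K Ω) y)
  rw [Polynomial.mem_nthRoots hn, ← map_pow, h, coeffMap_coeffMap]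
  refine coeffMap_congr ?_ y
  ext a
  exact σ.commutes a

/-- RT-3. -/
theorem kummerEquiv_down [IsAlgClosed K] [CharZero K] [IsAlgClosed Ω] {N n : ℕ} (hn : 0 < n)
    {u₀ u₁ : LaurentSeries K}
    (h : KummerEquiv N n (coeffMap (algebraMap K Ω) u₀) (coeffMap (algebraMap K Ω) u₁)) :
    KummerEquiv N n u₀ u₁ := by
  obtain ⟨z, hz, hz0, hzu⟩ := h
  have hinj := coeffMap_injective (algebraMap K Ω)
  rcases eq_or_ne u₀ 0 with rfl | hu0
  · refine ⟨1, one_mem _, one_ne_zero, ?_⟩
    rw [map_zero, zero_mul] at hzu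
    rw [zero_mul]
    exact hinj (by rw [hzu, map_zero])
  · have hu0' : coeffMap (algebraMap K Ω) u₀ ≠ 0 := by
      rw [Ne, map_eq_zero_iff _ hinj]; exact hu0
    have h1 : z ^ n = coeffMap (algebraMap K Ω) (u₁ / u₀) := by
      rw [map_div₀, hzu, mul_div_cancel_left₀ _ hu0']
    obtain ⟨z₀, rfl⟩ := exists_coeffMap_eq_of_pow hn z _ h1
    refine ⟨z₀, mem_FF_of_coeffMap_mem hz, ?_, ?_⟩
    · rintro rfl
      exact hz0 (map_zero _)
    · apply hinj
      rw [hzu, map_mul, map_pow]

end Fermat.Agent.GR.C
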