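import Fermat.Agent.GR.C.CanonDefs
import Fermat.Agent.S24.ZerosCore

/-!
# GR-C: CAN-2, the `q`-order is bounded on `L(b (x)_∞)`
-/

set_option autoImplicit false

noncomputable section

open ModularCurve AlgebraicCurve IntermediateField

namespace Fermat.Agent.GR.C

variable {Ω : Type} [Field Ω] {F : IntermediateField Ω (LaurentSeries Ω)}

/-- CAN-2. -/
theorem order_le_of_good [IsAlgClosed Ω] [CharZero Ω] {x : F} (hx : Transcendental Ω x)
    (hfin : FiniteDimensional (IntermediateField.adjoin Ω {x}) F)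
    (vinf : Place Ω F) (hvinf : ∀ f : F, vinf.ord f = (f : LaurentSeries Ω).order)
    {b : ℕ} {w : F} (hw : w ≠ 0) (hg : Good x b w) :
    (w : LaurentSeries Ω).order ≤ (b : ℤ) * Module.finrank (IntermediateField.adjoin Ω {x}) F := by
  classical
  have hsupp := S24.Zeros.finite_support_ord hfin w
  have hpoles := S24.Zeros.finite_poles hx hfin
  set T : Finset (Place Ω F) := hsupp.toFinset ∪ hpoles.toFinset ∪ {vinf} with hT
  -- the sum of all orders of `w` vanishes
  have h1 : ∑ v ∈ T, v.ord w = 0 := by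
    rw [← S24.Zeros.finsum_ord_eq_zero hfin w]
    refine (finsum_eq_sum_of_support_subset _ ?_).symm
    intro v hv
    simp only [hT, Finset.coe_union, Set.Finite.coe_toFinset, Finset.coe_singleton]
    exact Or.inl (Or.inl hv)
  -- the pole divisor of `x` has degree `[F : Ω(x)]`
  have h2 : ∑ v ∈ T, min 0 (v.ord x)
      = -(Module.finrank (IntermediateField.adjoin Ω {x}) F : ℤ) := by
    rw [← S24.Zeros.sum_ord_poles hx hfin, finsum_mem_eq_finite_toFinset_sum _ hpoles]
    have hsub : hpoles.toFinset ⊆ T := by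
      intro v hv
      simp only [hT, Finset.mem_union]
      exact Or.inl (Or.inr hv)
    rw [← Finset.sum_subset hsub]
    · refine Finset.sum_congr rfl fun v hv => ?_
      have : v.ord x < 0 := by simpa using hv
      exact min_eq_right this.le
    · intro v _ hv
      have : ¬ v.ord x < 0 := by simpa using hv
      exact min_eq_left (not_lt.mp this)
  have hmem : vinf ∈ T := by simp [hT]
  have h3 : ∑ v ∈ T, ((b : ℤ) * min 0 (v.ord x) - v.ord w)
      ≤ (b : ℤ) * min 0 (vinf.ord x) - vinf.ord w := by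
    rw [← Finset.add_sum_erase T _ hmem]
    have : ∑ v ∈ T.erase vinf, ((b : ℤ) * min 0 (v.ord x) - v.ord w) ≤ 0 :=
      Finset.sum_nonpos fun v _ => sub_nonpos.mpr (hg v)
    linarith
  rw [Finset.sum_sub_distrib, ← Finset.mul_sum, h1, h2] at h3
  have h4 : (b : ℤ) * min 0 (vinf.ord x) ≤ 0 :=
    mul_nonpos_of_nonneg_of_nonpos (Int.natCast_nonneg b) (min_le_left _ _)
  rw [← hvinf w]
  linarith

end Fermat.Agent.GR.C
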