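import Fermat.Agent.GR.C.Can1
import Fermat.Agent.GR.C.Can2

/-!
# GR-C: CAN-3, existence of the canonical representative
-/

set_option autoImplicit false

noncomputable section

open ModularCurve AlgebraicCurve IntermediateField

namespace Fermat.Agent.GR.C

variable {Ω : Type} [Field Ω] {F : IntermediateField Ω (LaurentSeries Ω)}

theorem Can3_coe_const (c : Ω) (n : ℕ) :
    (((algebraMap Ω F c) ^ n : F) : LaurentSeries Ω) = HahnSeries.single 0 (c ^ n) := by
  have h : ((algebraMap Ω F c : F) : LaurentSeries Ω) = algebraMap Ω (LaurentSeries Ω) c := rfl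
  rw [SubmonoidClass.coe_pow, h, ← map_pow, algebraMap_laurentSeries_eq_single]

/-- CAN-3. -/
theorem exists_isCan [IsAlgClosed Ω] [CharZero Ω] {x : F} (hx : Transcendental Ω x)
    (hfin : FiniteDimensional (IntermediateField.adjoin Ω {x}) F)
    (vinf : Place Ω F) (hvinf : ∀ f : F, vinf.ord f = (f : LaurentSeries Ω).order)
    {n : ℕ} (hn : 0 < n) {u : F} (hu : u ≠ 0) : ∃ w : F, IsCan x n u w := by
  classical
  have hex : ∃ b : ℕ, ∃ w ∈ Cls n u, Good x b w := exists_good hx hfin hn hu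
  have hb : ∃ w ∈ Cls n u, Good x (Nat.find hex) w := Nat.find_spec hex
  have hmin : ∀ b' < Nat.find hex, ∀ w' ∈ Cls n u, ¬ Good x b' w' :=
    fun b' hb' w' hw' hg => Nat.find_min hex hb' ⟨w', hw', hg⟩
  generalize Nat.find hex = b at hb hmin
  have hne : ∀ w' ∈ Cls n u, w' ≠ 0 := by
    rintro w' ⟨z, hz, rfl⟩
    exact mul_ne_zero hu (pow_ne_zero n hz)
  have hbdd : ∃ B : ℤ, ∀ k : ℤ,
      (∃ w' ∈ Cls n u, Good x b w' ∧ (w' : LaurentSeries Ω).order = k) → k ≤ B := by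
    refine ⟨(b : ℤ) * Module.finrank (IntermediateField.adjoin Ω {x}) F, ?_⟩
    rintro k ⟨w', hw', hg, rfl⟩
    exact order_le_of_good hx hfin vinf hvinf (hne w' hw') hg
  have hinh : ∃ k : ℤ, ∃ w' ∈ Cls n u, Good x b w' ∧ (w' : LaurentSeries Ω).order = k := by
    obtain ⟨w', hw', hg⟩ := hb
    exact ⟨_, w', hw', hg, rfl⟩
  obtain ⟨k, ⟨w', hw'c, hw'g, hk⟩, hmax⟩ := Int.exists_greatest_of_bdd hbdd hinh
  have hw'0 : w' ≠ 0 := hne w' hw'c
  have hw'0' : (w' : LaurentSeries Ω) ≠ 0 := fun h => hw'0 (Subtype.ext h)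
  have hlc : (w' : LaurentSeries Ω).leadingCoeff ≠ 0 := HahnSeries.leadingCoeff_ne_zero.mpr hw'0'
  obtain ⟨c, hc⟩ := IsAlgClosed.exists_pow_nat_eq ((w' : LaurentSeries Ω).leadingCoeff)⁻¹ hn
  have hc0 : c ≠ 0 := by
    rintro rfl
    rw [zero_pow hn.ne'] at hc
    exact inv_ne_zero hlc hc.symm
  have hcF : algebraMap Ω F c ≠ 0 := by
    rw [Ne, map_eq_zero]
    exact hc0
  have hcoe : ((w' * (algebraMap Ω F c) ^ n : F) : LaurentSeries Ω) =
      (w' : LaurentSeries Ω) * HahnSeries.single 0 (c ^ n) := by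
    rw [MulMemClass.coe_mul, Can3_coe_const]
  have hs0 : (HahnSeries.single (0 : ℤ) (c ^ n) : LaurentSeries Ω) ≠ 0 :=
    HahnSeries.single_ne_zero (pow_ne_zero n hc0)
  have hord : ((w' * (algebraMap Ω F c) ^ n : F) : LaurentSeries Ω).order = k := by
    rw [hcoe, HahnSeries.order_mul hw'0' hs0, HahnSeries.order_single (pow_ne_zero n hc0), add_zero,
      hk]
  refine ⟨w' * (algebraMap Ω F c) ^ n, ?_, ?_, b, ?_, hmin, ?_⟩
  · obtain ⟨z, hz, rfl⟩ := hw'c
    exact ⟨z * algebraMap Ω F c, mul_ne_zero hz hcF, by rw [mul_pow, mul_assoc]⟩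
  · rw [hcoe, HahnSeries.leadingCoeff_mul, HahnSeries.leadingCoeff_of_single, hc,
      mul_inv_cancel₀ hlc]
  · intro v
    rw [Place.ord_mul v hw'0 (pow_ne_zero n hcF)]
    have h0 : v.ord ((algebraMap Ω F c) ^ n) = 0 := by
      rw [← map_pow]
      exact Fermat.Agent.S24.Zeros.ord_algebraMap v _
    rw [h0, add_zero]
    exact hw'g v
  · intro w'' hw''c hw''g
    rw [hord]
    exact hmax _ ⟨w'', hw''c, hw''g, rfl⟩

end Fermat.Agent.GR.C
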