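import Fermat.Agent.GR.C.CanonDefs
import Fermat.Agent.S24.PlacesDedekind

/-!
# GR-C: CAN-4, uniqueness of the canonical representative
-/

set_option autoImplicit false

noncomputable section

open ModularCurve AlgebraicCurve IntermediateField

namespace Fermat.Agent.GR.C

variable {Ω : Type} [Field Ω] {F : IntermediateField Ω (LaurentSeries Ω)}

theorem Can4_order_cls {n : ℕ} {u z : F} (hu : u ≠ 0) (hz : z ≠ 0) :
    ((u * z ^ n : F) : LaurentSeries Ω).order =
      (u : LaurentSeries Ω).order + n * (z : LaurentSeries Ω).order := by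
  have hu' : (u : LaurentSeries Ω) ≠ 0 := fun h => hu (Subtype.ext h)
  have hz' : (z : LaurentSeries Ω) ≠ 0 := fun h => hz (Subtype.ext h)
  rw [IntermediateField.coe_mul, IntermediateField.coe_pow,
    HahnSeries.order_mul hu' (pow_ne_zero _ hz'), HahnSeries.order_pow, nsmul_eq_mul]

theorem Can4_ord_cls (v : Place Ω F) {n : ℕ} {u z : F} (hu : u ≠ 0) (hz : z ≠ 0) :
    v.ord (u * z ^ n) = v.ord u + n * v.ord z := by
  rw [v.ord_mul hu (pow_ne_zero _ hz), ← zpow_natCast, v.ord_zpow]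

/-- subtracting the leading term raises the order. -/
theorem Can4_order_lt {f g : LaurentSeries Ω} (hg : g ≠ 0) (ho : f.order = g.order)
    (h : f - HahnSeries.C (f.leadingCoeff / g.leadingCoeff) * g ≠ 0) :
    f.order < (f - HahnSeries.C (f.leadingCoeff / g.leadingCoeff) * g).order := by
  by_contra hcon
  rw [not_lt] at hcon
  apply (HahnSeries.coeff_order_eq_zero.not.mpr h)
  set m := (f - HahnSeries.C (f.leadingCoeff / g.leadingCoeff) * g).order with hm
  rw [HahnSeries.coeff_sub, HahnSeries.C_mul_eq_smul, HahnSeries.coeff_smul, smul_eq_mul]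
  rcases lt_or_eq_of_le hcon with hlt | heq
  · rw [HahnSeries.coeff_eq_zero_of_lt_order hlt,
      HahnSeries.coeff_eq_zero_of_lt_order (ho ▸ hlt), mul_zero, sub_zero]
  · have hg' : g.leadingCoeff ≠ 0 := HahnSeries.leadingCoeff_ne_zero.mpr hg
    have e1 : f.coeff m = f.leadingCoeff := by
      rw [heq, HahnSeries.leadingCoeff_eq]
    have e2 : g.coeff m = g.leadingCoeff := by
      rw [heq, ho, HahnSeries.leadingCoeff_eq]
    rw [e1, e2, div_mul_cancel₀ _ hg', sub_self]

/-- CAN-4. -/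
theorem IsCan.unique {x : F} {n : ℕ} (hn : 0 < n) {u w₁ w₂ : F} (hu : u ≠ 0)
    (h₁ : IsCan x n u w₁) (h₂ : IsCan x n u w₂) : w₁ = w₂ := by
  obtain ⟨b₁, hg₁, hmin₁, hmax₁⟩ := h₁.ex
  obtain ⟨b₂, hg₂, hmin₂, hmax₂⟩ := h₂.ex
  have hb : b₁ = b₂ := by
    rcases lt_trichotomy b₁ b₂ with h | h | h
    · exact absurd hg₁ (hmin₂ b₁ h w₁ h₁.mem)
    · exact h
    · exact absurd hg₂ (hmin₁ b₂ h w₂ h₂.mem)
  subst hb
  have ho : (w₁ : LaurentSeries Ω).order = (w₂ : LaurentSeries Ω).order :=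
    le_antisymm (hmax₂ w₁ h₁.mem hg₁) (hmax₁ w₂ h₂.mem hg₂)
  obtain ⟨z₁, hz₁, rfl⟩ := h₁.mem
  obtain ⟨z₂, hz₂, rfl⟩ := h₂.mem
  have hz₁' : (z₁ : LaurentSeries Ω) ≠ 0 := fun h => hz₁ (Subtype.ext h)
  have hz₂' : (z₂ : LaurentSeries Ω) ≠ 0 := fun h => hz₂ (Subtype.ext h)
  have hoz : (z₁ : LaurentSeries Ω).order = (z₂ : LaurentSeries Ω).order := by
    rw [Can4_order_cls hu hz₁, Can4_order_cls hu hz₂] at ho
    have h := add_left_cancel ho
    exact mul_left_cancel₀ (by exact_mod_cast hn.ne') h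
  set c : Ω := (z₁ : LaurentSeries Ω).leadingCoeff / (z₂ : LaurentSeries Ω).leadingCoeff with hc
  have hc0 : c ≠ 0 := div_ne_zero (HahnSeries.leadingCoeff_ne_zero.mpr hz₁')
    (HahnSeries.leadingCoeff_ne_zero.mpr hz₂')
  have hcF : algebraMap Ω F c ≠ 0 := by
    rw [Ne, map_eq_zero]; exact hc0
  set z : F := z₁ - algebraMap Ω F c * z₂ with hz
  have hCc : ∀ a : Ω, ((algebraMap Ω F a : F) : LaurentSeries Ω) = HahnSeries.C a := by
    intro a
    rw [IntermediateField.coe_algebraMap_apply, algebraMap_laurentSeries_eq_single,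
      HahnSeries.C_apply]
  have hzcoe : (z : LaurentSeries Ω) =
      (z₁ : LaurentSeries Ω) - HahnSeries.C c * (z₂ : LaurentSeries Ω) := by
    rw [hz, AddSubgroupClass.coe_sub, IntermediateField.coe_mul, hCc]
  by_cases hz0 : z = 0
  · -- proportional
    have e : z₁ = algebraMap Ω F c * z₂ := sub_eq_zero.mp hz0
    have e' : u * z₁ ^ n = algebraMap Ω F (c ^ n) * (u * z₂ ^ n) := by
      rw [e, mul_pow, map_pow]; ring
    have hl := h₁.lead
    rw [e', IntermediateField.coe_mul] at hl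
    rw [hCc, HahnSeries.leadingCoeff_mul, h₂.lead, mul_one, HahnSeries.C_apply,
      HahnSeries.leadingCoeff_of_single] at hl
    rw [e', hl, map_one, one_mul]
  · exfalso
    have hz0' : (z : LaurentSeries Ω) ≠ 0 := fun h => hz0 (Subtype.ext h)
    have hlt : (z₁ : LaurentSeries Ω).order < (z : LaurentSeries Ω).order := by
      rw [hzcoe]
      exact Can4_order_lt hz₂' hoz (hzcoe ▸ hz0')
    have hgood : Good x b₁ (u * z ^ n) := by
      intro v
      have h1 := hg₁ v
      have h2 := hg₂ v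
      rw [Can4_ord_cls v hu hz₁] at h1
      rw [Can4_ord_cls v hu hz₂] at h2
      rw [Can4_ord_cls v hu hz0]
      have h3 : min (v.ord z₁) (v.ord z₂) ≤ v.ord z := by
        have h4 : z₁ + -(algebraMap Ω F c * z₂) ≠ 0 := by
          rw [← sub_eq_add_neg]; exact hz0
        have h5 := Fermat.Agent.S24.Zeros.min_ord_le_ord_add v h4
        have h6 : v.ord (-(algebraMap Ω F c * z₂)) = v.ord z₂ := by
          have : -(algebraMap Ω F c * z₂) = algebraMap Ω F (-c) * z₂ := by
            rw [map_neg, neg_mul]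
          rw [this, v.ord_mul (by rw [Ne, map_eq_zero, neg_eq_zero]; exact hc0) hz₂,
            Fermat.Agent.S24.Zeros.ord_algebraMap, zero_add]
        rw [h6, ← sub_eq_add_neg] at h5
        exact h5
      have hn' : (0 : ℤ) ≤ n := Int.natCast_nonneg n
      rcases min_le_iff.mp h3 with h | h
      · have := mul_le_mul_of_nonneg_left h hn'
        linarith
      · have := mul_le_mul_of_nonneg_left h hn'
        linarith
    have hle := hmax₁ (u * z ^ n) ⟨z, hz0, rfl⟩ hgood
    rw [Can4_order_cls hu hz0, Can4_order_cls hu hz₁] at hle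
    have hn' : (0 : ℤ) < n := by exact_mod_cast hn
    have := mul_lt_mul_of_pos_left hlt hn'
    linarith

end Fermat.Agent.GR.C
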