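import Fermat.Agent.GR.C.CanonDefs

/-!
# GR-C: CAN-5, functoriality of the canonical representative
-/

set_option autoImplicit false

noncomputable section

open ModularCurve AlgebraicCurve IntermediateField

namespace Fermat.Agent.GR.C

variable {Ω : Type} [Field Ω] {F : IntermediateField Ω (LaurentSeries Ω)}

theorem Can5_cls_eq {n : ℕ} {u u' : F} (hu : u' ∈ Cls n u) : Cls n u' = Cls n u := by
  obtain ⟨z, hz, rfl⟩ := hu
  ext w
  constructor
  · rintro ⟨y, hy, rfl⟩
    exact ⟨z * y, mul_ne_zero hz hy, by rw [mul_pow, mul_assoc]⟩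
  · rintro ⟨y, hy, rfl⟩
    refine ⟨y / z, div_ne_zero hy hz, ?_⟩
    rw [mul_assoc, ← mul_pow, mul_div_cancel₀ _ hz]

/-- CAN-5a. -/
theorem IsCan.congr {x : F} {n : ℕ} {u u' w : F} (hu : u' ∈ Cls n u) (h : IsCan x n u w) :
    IsCan x n u' w := by
  have hc := Can5_cls_eq hu
  refine ⟨hc ▸ h.mem, h.lead, ?_⟩
  rw [hc]
  exact h.ex

theorem Can5_cls_smul {n : ℕ} {u w : F} (g : SemilinearAut Ω F) (h : w ∈ Cls n u) :
    g • w ∈ Cls n (g • u) := by
  obtain ⟨z, hz, rfl⟩ := h
  exact ⟨g • z, by simpa using hz, by rw [smul_mul', smul_pow']⟩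

theorem Can5_good_smul {x w : F} {b : ℕ} (g : SemilinearAut Ω F) (hgx : g • x = x)
    (h : Good x b w) : Good x b (g • w) := by
  intro v
  have h1 := SemilinearAut.ord_smul g (g⁻¹ • v) w
  have h2 := SemilinearAut.ord_smul g (g⁻¹ • v) x
  rw [smul_inv_smul] at h1 h2
  rw [hgx] at h2
  rw [h1, h2]
  exact h (g⁻¹ • v)

theorem Can5_order_eq (σ : Ω ≃+* Ω) (f f' : LaurentSeries Ω)
    (h : ∀ k : ℤ, f'.coeff k = σ (f.coeff k)) : f'.order = f.order := by
  rcases eq_or_ne f 0 with rfl | hf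
  · have : f' = 0 := by
      ext k
      simp [h k]
    rw [this]
  · have hf' : f' ≠ 0 := by
      rintro rfl
      apply hf
      ext k
      have := h k
      simpa using this.symm
    apply le_antisymm
    · apply HahnSeries.order_le_of_coeff_ne_zero
      rw [h]
      simpa [HahnSeries.coeff_order_eq_zero] using hf
    · apply HahnSeries.order_le_of_coeff_ne_zero
      intro h0
      have := h f'.order
      rw [h0, map_zero, HahnSeries.coeff_order_eq_zero] at this
      exact hf' this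

theorem Can5_leadingCoeff_eq (σ : Ω ≃+* Ω) (f f' : LaurentSeries Ω)
    (h : ∀ k : ℤ, f'.coeff k = σ (f.coeff k)) : f'.leadingCoeff = σ f.leadingCoeff := by
  rw [HahnSeries.leadingCoeff_eq, HahnSeries.leadingCoeff_eq, Can5_order_eq σ f f' h, h]

/-- CAN-5b. -/
theorem IsCan.smul {x : F} {n : ℕ} {u w : F} (h : IsCan x n u w) (g : SemilinearAut Ω F)
    (hgx : g • x = x)
    (hg : ∀ (f : F) (k : ℤ), ((g • f : F) : LaurentSeries Ω).coeff k =
      SemilinearAut.baseAut g ((f : LaurentSeries Ω).coeff k)) :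
    IsCan x n (g • u) (g • w) := by
  have hgx' : g⁻¹ • x = x := by
    rw [inv_smul_eq_iff, hgx]
  have hord : ∀ f : F, ((g • f : F) : LaurentSeries Ω).order = (f : LaurentSeries Ω).order :=
    fun f => Can5_order_eq (SemilinearAut.baseAut g) _ _ (hg f)
  have hcls : ∀ w' ∈ Cls n (g • u), g⁻¹ • w' ∈ Cls n u := by
    intro w' hw'
    have := Can5_cls_smul g⁻¹ hw'
    rwa [inv_smul_smul] at this
  obtain ⟨b, hb1, hb2, hb3⟩ := h.ex
  refine ⟨Can5_cls_smul g h.mem, ?_, b, Can5_good_smul g hgx hb1, ?_, ?_⟩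
  · rw [Can5_leadingCoeff_eq (SemilinearAut.baseAut g) _ _ (hg w), h.lead, map_one]
  · intro b' hb' w' hw' hgood
    exact hb2 b' hb' _ (hcls w' hw') (Can5_good_smul g⁻¹ hgx' hgood)
  · intro w' hw' hgood
    have := hb3 _ (hcls w' hw') (Can5_good_smul g⁻¹ hgx' hgood)
    rw [← hord (g⁻¹ • w'), smul_inv_smul] at this
    rw [hord w]
    exact this

end Fermat.Agent.GR.C
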