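import Fermat.Agent.GR.C.Basic
import Fermat.Agent.Lib.AutExt

/-!
# GR-C: CJ, complex conjugation on `ℚ̄`
-/

set_option autoImplicit false

noncomputable section

open ModularCurve AlgebraicCurve IntermediateField

namespace Fermat.Agent.GR.C

/-- every algebraic number lies in the range of an embedding `ℚ̄ → ℂ`. -/
theorem Conj_mem_range (ι : AlgebraicClosure ℚ →+* ℂ) (z : ℂ) (hz : IsAlgebraic ℚ z) :
    ∃ y, ι y = z := by
  let _ : Algebra (AlgebraicClosure ℚ) ℂ := ι.toAlgebra
  have : IsScalarTower ℚ (AlgebraicClosure ℚ) ℂ :=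
    IsScalarTower.of_algebraMap_eq' (Subsingleton.elim _ _)
  have h1 : IsAlgebraic (AlgebraicClosure ℚ) z := hz.tower_top (AlgebraicClosure ℚ)
  exact Fermat.Agent.Lib.AutExt.mem_range_algebraMap_of_isAlgebraic z h1

/-- CJ. Complex conjugation restricts to `ℚ̄` along any embedding. -/
theorem exists_conj (ι : AlgebraicClosure ℚ →+* ℂ) :
    ∃ c : AlgebraicClosure ℚ ≃ₐ[ℚ] AlgebraicClosure ℚ,
      ∀ x, ι (c x) = starRingEnd ℂ (ι x) := by
  have halg : Algebra.IsAlgebraic ℚ (AlgebraicClosure ℚ) := AlgebraicClosure.isAlgebraic ℚ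
  have key : ∀ x : AlgebraicClosure ℚ, ∃ y, ι y = starRingEnd ℂ (ι x) := by
    intro x
    apply Conj_mem_range
    have hx : IsAlgebraic ℚ x := Algebra.IsAlgebraic.isAlgebraic x
    exact IsAlgebraic.algHom ((starRingEnd ℂ).comp ι).toRatAlgHom hx
  choose c0 hc0 using key
  let c : AlgebraicClosure ℚ →ₐ[ℚ] AlgebraicClosure ℚ :=
    { toFun := c0
      map_one' := ι.injective (by rw [hc0]; simp)
      map_mul' := fun x y => ι.injective (by rw [hc0, map_mul, map_mul, map_mul, hc0, hc0])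
      map_zero' := ι.injective (by rw [hc0]; simp)
      map_add' := fun x y => ι.injective (by rw [hc0, map_add, map_add, map_add, hc0, hc0])
      commutes' := fun r => ι.injective (by
        rw [hc0]
        simp) }
  exact ⟨AlgEquiv.ofBijective c (Algebra.IsAlgebraic.algHom_bijective c), hc0⟩

/-- CJ'. -/
theorem coeffMap_conj (ι : AlgebraicClosure ℚ →+* ℂ)
    (c : AlgebraicClosure ℚ ≃ₐ[ℚ] AlgebraicClosure ℚ)
    (hc : ∀ x, ι (c x) = starRingEnd ℂ (ι x)) (u : LaurentSeries (AlgebraicClosure ℚ)) :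
    coeffMap ι (coeffMap (c : AlgebraicClosure ℚ →+* AlgebraicClosure ℚ) u) =
      coeffMap (starRingEnd ℂ) (coeffMap ι u) := by
  ext m
  simp only [coeffMap_coeff]
  exact hc _

end Fermat.Agent.GR.C
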