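import Fermat.Agent.GR.C.Basic

/-!
# GR-C: LD-6, extension of homomorphisms to the base change
-/

set_option autoImplicit false

noncomputable section

open ModularCurve AlgebraicCurve IntermediateField
open scoped TensorProduct

namespace Fermat.Agent.GR.C

variable {K Ω : Type} [Field K] [Field Ω] [Algebra K Ω]

/-- linear independence is preserved by the base change of the coefficients -/
theorem Extend_linearIndependent_coeffMap {ι : Type*} (v : ι → LaurentSeries K)
    (hv : LinearIndependent K v) :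
    LinearIndependent Ω (fun i => coeffMap (algebraMap K Ω) (v i)) := by
  classical
  let b := Module.Basis.ofVectorSpace K Ω
  rw [linearIndependent_iff'] at hv ⊢
  intro s g hg i hi
  have key : ∀ k, ∀ i ∈ s, b.coord k (g i) = 0 := by
    intro k
    apply hv s (fun i => b.coord k (g i))
    ext n
    have h1 := congrArg (fun x => HahnSeries.coeff x n) hg
    simp only [HahnSeries.coeff_sum, HahnSeries.coeff_smul, ModularCurve.coeffMap_coeff,
      HahnSeries.coeff_zero, smul_eq_mul] at h1 ⊢
    have h2 := congrArg (b.coord k) h1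
    rw [map_sum, map_zero] at h2
    rw [← h2]
    apply Finset.sum_congr rfl
    intro i _
    have : g i * algebraMap K Ω ((v i).coeff n) = ((v i).coeff n) • g i := by
      rw [Algebra.smul_def, mul_comm]
    rw [this, map_smul, smul_eq_mul, mul_comm]
  apply b.ext_elem
  intro k
  have := key k i hi
  simpa using this

theorem Extend_module_eq (L : Type) [Field L] :
    (Algebra.toModule : Module L (LaurentSeries L)) = HahnSeries.instModule := by
  apply Module.ext'
  intro c x
  have h1 := @Algebra.smul_def L (LaurentSeries L) _ _ _ c x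
  rw [ModularCurve.algebraMap_laurentSeries_eq_single, HahnSeries.single_zero_mul_eq_smul] at h1
  exact h1

/-- the same for the module structures coming from the algebra structures -/
theorem Extend_linearIndependent_coeffMap' {ι : Type*} (v : ι → LaurentSeries K)
    (hv : @LinearIndependent ι K (LaurentSeries K) v _ _ Algebra.toModule) :
    @LinearIndependent ι Ω (LaurentSeries Ω) (fun i => coeffMap (algebraMap K Ω) (v i)) _ _
      Algebra.toModule := by
  rw [Extend_module_eq] at hv ⊢
  exact Extend_linearIndependent_coeffMap v hv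

theorem Extend_isScalarTower :
    @IsScalarTower K Ω (LaurentSeries Ω) _ Algebra.toSMul Algebra.toSMul := by
  apply IsScalarTower.of_algebraMap_eq
  intro a
  rw [HahnSeries.algebraMap_apply', HahnSeries.algebraMap_apply', PowerSeries.algebraMap_apply,
    PowerSeries.algebraMap_apply]
  simp

attribute [local instance] Extend_isScalarTower

/-- `coeffMap` as a `K`-algebra homomorphism. -/
def Extend_iAlg : LaurentSeries K →ₐ[K] LaurentSeries Ω :=
  { coeffMap (algebraMap K Ω) with
    commutes' := fun a => by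
      show coeffMap (algebraMap K Ω) (algebraMap K (LaurentSeries K) a) = _
      rw [coeffMap_algebraMap', ← IsScalarTower.algebraMap_apply] }

@[simp] theorem Extend_iAlg_apply (f : LaurentSeries K) :
    (Extend_iAlg : LaurentSeries K →ₐ[K] LaurentSeries Ω) f = coeffMap (algebraMap K Ω) f := rfl

/-- the `Ω`-algebra homomorphism `Ω ⊗ F₁ → Ω((q))` induced by a `K`-algebra homomorphism
`F₁ → K((q))`. -/
def Extend_lift {F₁ : Type} [Field F₁] [Algebra K F₁] (g : F₁ →ₐ[K] LaurentSeries K) :
    Ω ⊗[K] F₁ →ₐ[Ω] LaurentSeries Ω :=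
  Algebra.TensorProduct.lift (Algebra.ofId Ω (LaurentSeries Ω))
    ((Extend_iAlg : LaurentSeries K →ₐ[K] LaurentSeries Ω).comp g) (fun _ _ => Commute.all _ _)

theorem Extend_lift_tmul {F₁ : Type} [Field F₁] [Algebra K F₁] (g : F₁ →ₐ[K] LaurentSeries K)
    (c : Ω) (f : F₁) :
    Extend_lift g (c ⊗ₜ[K] f) =
      algebraMap Ω (LaurentSeries Ω) c * coeffMap (algebraMap K Ω) (g f) := by
  simp [Extend_lift, Algebra.ofId_apply]

theorem Extend_lift_injective {F₁ : Type} [Field F₁] [Algebra K F₁]
    (g : F₁ →ₐ[K] LaurentSeries K) :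
    Function.Injective (Extend_lift g : Ω ⊗[K] F₁ →ₐ[Ω] LaurentSeries Ω) := by
  let _ : Module K (LaurentSeries K) := Algebra.toModule
  let _ : Module Ω (LaurentSeries Ω) := Algebra.toModule
  let b := Module.Basis.ofVectorSpace K F₁
  let B := Algebra.TensorProduct.basis Ω b
  have h1 : LinearIndependent K (fun j => g (b j)) :=
    b.linearIndependent.map' g.toLinearMap (LinearMap.ker_eq_bot.mpr g.toRingHom.injective)
  have h2 := Extend_linearIndependent_coeffMap' (Ω := Ω) _ h1
  have h3 := B.injective_constr_of_linearIndependent (R₂ := Ω) h2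
  have h4 : (Extend_lift g : Ω ⊗[K] F₁ →ₐ[Ω] LaurentSeries Ω).toLinearMap =
      B.constr Ω (fun j => coeffMap (algebraMap K Ω) (g (b j))) := by
    apply B.ext
    intro j
    rw [Module.Basis.constr_basis, Algebra.TensorProduct.basis_apply]
    show Extend_lift g ((1 : Ω) ⊗ₜ[K] b j) = _
    rw [Extend_lift_tmul, map_one, one_mul]
  intro x y hxy
  apply h3
  rw [← h4]
  exact hxy

open scoped IntermediateField.algebraAdjoinAdjoin in
/-- LD-6 (extension of homomorphisms to the base change). -/
theorem exists_extend_hom (F₁ : IntermediateField K (LaurentSeries K))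
    (φ : F₁ →+* LaurentSeries K) (hφ : ∀ a : K, φ (algebraMap K F₁ a) = HahnSeries.C a) :
    ∃ φ' : (IntermediateField.adjoin Ω
        (⇑(coeffMap (algebraMap K Ω)) '' (F₁ : Set (LaurentSeries K)))) →+* LaurentSeries Ω,
      (∀ c : Ω, φ' (algebraMap Ω _ c) = HahnSeries.C c) ∧
      ∀ f : F₁, φ' ⟨coeffMap (algebraMap K Ω) (f : LaurentSeries K),
        IntermediateField.subset_adjoin Ω _ ⟨f, f.2, rfl⟩⟩ = coeffMap (algebraMap K Ω) (φ f) := by
  set S : Set (LaurentSeries Ω) := ⇑(coeffMap (algebraMap K Ω)) '' (F₁ : Set (LaurentSeries K))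
    with hS
  let φA : F₁ →ₐ[K] LaurentSeries K :=
    { φ with
      commutes' := fun a => by
        show φ (algebraMap K F₁ a) = _
        rw [hφ, algebraMap_laurentSeries_eq_single]
        rfl }
  let ψ₁ : Ω ⊗[K] F₁ →ₐ[Ω] LaurentSeries Ω := Extend_lift F₁.val
  let ψ₂ : Ω ⊗[K] F₁ →ₐ[Ω] LaurentSeries Ω := Extend_lift φA
  have hψ₁ : Function.Injective ψ₁ := Extend_lift_injective _
  have hψ₂ : Function.Injective ψ₂ := Extend_lift_injective _
  let e : Ω ⊗[K] F₁ ≃ₐ[Ω] ψ₁.range := AlgEquiv.ofInjective ψ₁ hψ₁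
  have hle : Algebra.adjoin Ω S ≤ ψ₁.range := by
    apply Algebra.adjoin_le
    rintro _ ⟨f, hf, rfl⟩
    refine ⟨(1 : Ω) ⊗ₜ[K] (⟨f, hf⟩ : F₁), ?_⟩
    show Extend_lift F₁.val _ = _
    rw [Extend_lift_tmul, map_one, one_mul]
    rfl
  let θ : Algebra.adjoin Ω S →ₐ[Ω] LaurentSeries Ω :=
    (ψ₂.comp e.symm.toAlgHom).comp (Subalgebra.inclusion hle)
  have hθ : Function.Injective θ :=
    (hψ₂.comp e.symm.injective).comp (Subalgebra.inclusion_injective hle)
  refine ⟨IsFractionRing.lift (A := Algebra.adjoin Ω S) (K := IntermediateField.adjoin Ω S)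
    (g := θ.toRingHom) hθ, ?_, ?_⟩
  · intro c
    have h1 : algebraMap Ω (IntermediateField.adjoin Ω S) c =
        algebraMap (Algebra.adjoin Ω S) (IntermediateField.adjoin Ω S)
          (algebraMap Ω (Algebra.adjoin Ω S) c) := rfl
    rw [h1, IsFractionRing.lift_algebraMap]
    show θ (algebraMap Ω (Algebra.adjoin Ω S) c) = _
    rw [AlgHom.commutes, algebraMap_laurentSeries_eq_single]
    rfl
  · intro f
    have hmem : coeffMap (algebraMap K Ω) (f : LaurentSeries K) ∈ Algebra.adjoin Ω S :=
      Algebra.subset_adjoin ⟨f, f.2, rfl⟩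
    have h1 : (⟨coeffMap (algebraMap K Ω) (f : LaurentSeries K),
        IntermediateField.subset_adjoin Ω _ ⟨f, f.2, rfl⟩⟩ : IntermediateField.adjoin Ω S) =
        algebraMap (Algebra.adjoin Ω S) (IntermediateField.adjoin Ω S) ⟨_, hmem⟩ := rfl
    rw [h1, IsFractionRing.lift_algebraMap]
    show ψ₂ (e.symm (Subalgebra.inclusion hle ⟨_, hmem⟩)) = _
    have h2 : Subalgebra.inclusion hle ⟨_, hmem⟩ = e ((1 : Ω) ⊗ₜ[K] f) := by
      apply Subtype.ext
      show _ = Extend_lift F₁.val ((1 : Ω) ⊗ₜ[K] f)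
      rw [Extend_lift_tmul, map_one, one_mul]
      rfl
    rw [h2, AlgEquiv.symm_apply_apply]
    show Extend_lift φA ((1 : Ω) ⊗ₜ[K] f) = _
    rw [Extend_lift_tmul, map_one, one_mul]
    rfl

/-- `FF Ω N` is generated over `Ω` by the image of `FF K N`. -/
theorem Extend_FF_eq_adjoin_image (N : ℕ) :
    FF Ω N = IntermediateField.adjoin Ω
      (⇑(coeffMap (algebraMap K Ω)) '' ((FF K N : IntermediateField K (LaurentSeries K)) :
        Set (LaurentSeries K))) := by
  apply le_antisymm
  · apply IntermediateField.adjoin_le_iff.mpr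
    rintro _ ⟨d, hd, hdN, rfl⟩
    apply IntermediateField.subset_adjoin
    refine ⟨_, jqModCd_mem_full K N hdN, ?_⟩
    rw [coeffMap_qExpand, coeffMap_jqModC]
  · apply IntermediateField.adjoin_le_iff.mpr
    rintro _ ⟨f, hf, rfl⟩
    exact coeffMap_mem_FF N _ hf

/-- LD-6'. -/
theorem exists_extend_hom_FF (N : ℕ)
    (φ : FF K N →+* LaurentSeries K) (hφ : ∀ a : K, φ (algebraMap K (FF K N) a) = HahnSeries.C a) :
    ∃ φ' : FF Ω N →+* LaurentSeries Ω,
      (∀ c : Ω, φ' (algebraMap Ω (FF Ω N) c) = HahnSeries.C c) ∧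
      ∀ f : FF K N, φ' (bc N (algebraMap K Ω) f) = coeffMap (algebraMap K Ω) (φ f) := by
  obtain ⟨φ', h1, h2⟩ := exists_extend_hom (Ω := Ω) (FF K N) φ hφ
  have heq := Extend_FF_eq_adjoin_image (K := K) (Ω := Ω) N
  let ε : FF Ω N →ₐ[Ω] IntermediateField.adjoin Ω
      (⇑(coeffMap (algebraMap K Ω)) '' ((FF K N : IntermediateField K (LaurentSeries K)) :
        Set (LaurentSeries K))) := IntermediateField.inclusion heq.le
  refine ⟨φ'.comp ε.toRingHom, ?_, ?_⟩
  · intro c
    show φ' (ε (algebraMap Ω (FF Ω N) c)) = _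
    rw [AlgHom.commutes, h1]
  · intro f
    exact h2 f

end Fermat.Agent.GR.C
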