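import Fermat.Agent.GR.C.Basic

/-!
# GR-C, piece LD: linear disjointness of `Ω` and `k((q))` over `k` inside `Ω((q))`
-/

set_option autoImplicit false

noncomputable section

open ModularCurve AlgebraicCurve

namespace Fermat.Agent.GR.C

section

variable {k Ω : Type*} [Field k] [Field Ω] [Algebra k Ω]

theorem coeff_sum_C_mul {ι : Type*} (s : Finset ι) (c : ι → Ω) (g : ι → LaurentSeries k) (m : ℤ) :
    (∑ i ∈ s, HahnSeries.C (c i) * coeffMap (algebraMap k Ω) (g i)).coeff m =
      ∑ i ∈ s, (g i).coeff m • c i := by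
  rw [HahnSeries.coeff_sum]
  refine Finset.sum_congr rfl fun i _ => ?_
  rw [HahnSeries.C_mul_eq_smul, HahnSeries.coeff_smul, coeffMap_coeff, smul_eq_mul,
    Algebra.smul_def, mul_comm]

/-- (LD) -/
theorem linDisj {r : ℕ} (c : Fin r → Ω) (hc : LinearIndependent k c) (g : Fin r → LaurentSeries k)
    (h : ∑ i, HahnSeries.C (c i) * coeffMap (algebraMap k Ω) (g i) = 0) : g = 0 := by
  funext i
  ext m
  have h1 := congrArg (fun x : LaurentSeries Ω => x.coeff m) h
  simp only [coeff_sum_C_mul, HahnSeries.coeff_zero] at h1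
  exact Fintype.linearIndependent_iff.1 hc (fun i => (g i).coeff m) h1 i

/-- `a` is a finite `Ω`-linear combination of images of elements of `F₁`. -/
def IsComb {k : Type*} {Ω : Type*} [Field k] [Field Ω] [Algebra k Ω]
    (F₁ : IntermediateField k (LaurentSeries k)) (a : LaurentSeries Ω) : Prop :=
  ∃ (n : ℕ) (c : Fin n → Ω) (f : Fin n → LaurentSeries k), (∀ i, f i ∈ F₁) ∧
    a = ∑ i, HahnSeries.C (c i) * coeffMap (algebraMap k Ω) (f i)

variable {F₁ : IntermediateField k (LaurentSeries k)}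

theorem isComb_of_fintype {ι : Type*} [Fintype ι] (c : ι → Ω) (f : ι → LaurentSeries k)
    (hf : ∀ i, f i ∈ F₁) :
    IsComb F₁ (∑ i, HahnSeries.C (c i) * coeffMap (algebraMap k Ω) (f i)) := by
  let e := Fintype.equivFin ι
  refine ⟨Fintype.card ι, c ∘ e.symm, f ∘ e.symm, fun i => hf _, ?_⟩
  exact (Equiv.sum_comp e.symm
    (fun i => HahnSeries.C (c i) * coeffMap (algebraMap k Ω) (f i))).symm

theorem IsComb.add {a b : LaurentSeries Ω} (ha : IsComb F₁ a) (hb : IsComb F₁ b) :
    IsComb F₁ (a + b) := by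
  obtain ⟨n, c, f, hf, rfl⟩ := ha
  obtain ⟨n', c', f', hf', rfl⟩ := hb
  have := isComb_of_fintype (F₁ := F₁) (Sum.elim c c') (Sum.elim f f')
    (by rintro (i | i); exacts [hf i, hf' i])
  rwa [Fintype.sum_sum_type] at this

theorem IsComb.mul {a b : LaurentSeries Ω} (ha : IsComb F₁ a) (hb : IsComb F₁ b) :
    IsComb F₁ (a * b) := by
  obtain ⟨n, c, f, hf, rfl⟩ := ha
  obtain ⟨n', c', f', hf', rfl⟩ := hb
  have := isComb_of_fintype (F₁ := F₁) (fun p : Fin n × Fin n' => c p.1 * c' p.2)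
    (fun p : Fin n × Fin n' => f p.1 * f' p.2) (fun p => mul_mem (hf _) (hf' _))
  rw [Fintype.sum_prod_type] at this
  rw [Finset.sum_mul_sum]
  have h : ∀ (i : Fin n) (j : Fin n'),
      HahnSeries.C (c i) * coeffMap (algebraMap k Ω) (f i) *
        (HahnSeries.C (c' j) * coeffMap (algebraMap k Ω) (f' j)) =
      HahnSeries.C (c i * c' j) * coeffMap (algebraMap k Ω) (f i * f' j) := by
    intro i j
    rw [map_mul, map_mul]; ring
  simp only [h]
  exact this

theorem isComb_C_mul (c : Ω) {f : LaurentSeries k} (hf : f ∈ F₁) :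
    IsComb F₁ (HahnSeries.C c * coeffMap (algebraMap k Ω) f) :=
  ⟨1, fun _ => c, fun _ => f, fun _ => hf, by simp⟩

theorem isComb_coeffMap {f : LaurentSeries k} (hf : f ∈ F₁) :
    IsComb F₁ (coeffMap (algebraMap k Ω) f) := by
  have := isComb_C_mul (Ω := Ω) 1 hf
  rwa [map_one, one_mul] at this

theorem isComb_C (c : Ω) : IsComb F₁ (HahnSeries.C c : LaurentSeries Ω) := by
  have := isComb_C_mul (F₁ := F₁) c (one_mem F₁)
  rwa [map_one, mul_one] at this

theorem isComb_one : IsComb F₁ (1 : LaurentSeries Ω) := by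
  have := isComb_C (F₁ := F₁) (1 : Ω)
  rwa [map_one] at this

theorem isComb_zero : IsComb F₁ (0 : LaurentSeries Ω) := by
  have := isComb_C (F₁ := F₁) (0 : Ω)
  rwa [map_zero] at this

theorem exists_frac {x : LaurentSeries Ω}
    (hx : x ∈ IntermediateField.adjoin Ω
      (⇑(coeffMap (algebraMap k Ω)) '' (F₁ : Set (LaurentSeries k)))) :
    ∃ a b : LaurentSeries Ω, IsComb F₁ a ∧ IsComb F₁ b ∧ b ≠ 0 ∧ x * b = a := by
  induction hx using IntermediateField.adjoin_induction with
  | mem x hx =>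
      obtain ⟨f, hf, rfl⟩ := hx
      exact ⟨_, 1, isComb_coeffMap hf, isComb_one, one_ne_zero, mul_one _⟩
  | algebraMap a =>
      refine ⟨_, 1, ?_, isComb_one, one_ne_zero, mul_one _⟩
      rw [algebraMap_laurentSeries_eq_single]
      exact isComb_C a
  | add x y _ _ hx hy =>
      obtain ⟨a, b, ha, hb, hb0, hab⟩ := hx
      obtain ⟨a', b', ha', hb', hb0', hab'⟩ := hy
      refine ⟨a * b' + a' * b, b * b', (ha.mul hb').add (ha'.mul hb),
        hb.mul hb', mul_ne_zero hb0 hb0', ?_⟩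
      rw [← hab, ← hab']; ring
  | inv x _ hx =>
      obtain ⟨a, b, ha, hb, hb0, hab⟩ := hx
      rcases eq_or_ne x 0 with rfl | hx0
      · exact ⟨0, 1, isComb_zero, isComb_one, one_ne_zero, by simp⟩
      · refine ⟨b, a, hb, ha, ?_, ?_⟩
        · rw [← hab]; exact mul_ne_zero hx0 hb0
        · rw [← hab, ← mul_assoc, inv_mul_cancel₀ hx0, one_mul]
  | mul x y _ _ hx hy =>
      obtain ⟨a, b, ha, hb, hb0, hab⟩ := hx
      obtain ⟨a', b', ha', hb', hb0', hab'⟩ := hy
      refine ⟨a * a', b * b', ha.mul ha', hb.mul hb', mul_ne_zero hb0 hb0', ?_⟩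
      rw [← hab, ← hab']; ring

theorem exists_basis_repr (k : Type*) [Field k] [Algebra k Ω] {ι : Type*} [Finite ι] (c : ι → Ω) :
    ∃ (r : ℕ) (e : Fin r → Ω) (A : ι → Fin r → k), LinearIndependent k e ∧
      ∀ i, c i = ∑ m, A i m • e m := by
  let V : Submodule k Ω := Submodule.span k (Set.range c)
  have : FiniteDimensional k V := FiniteDimensional.span_of_finite k (Set.finite_range c)
  let b := Module.finBasis k V
  refine ⟨_, fun m => (b m : Ω),
    fun i m => b.repr ⟨c i, Submodule.subset_span (Set.mem_range_self i)⟩ m,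
    b.linearIndependent.map' V.subtype (Submodule.ker_subtype V), fun i => ?_⟩
  have := congrArg Subtype.val (b.sum_repr ⟨c i, Submodule.subset_span (Set.mem_range_self i)⟩)
  simp only [Submodule.coe_sum, Submodule.coe_smul] at this
  exact this.symm

theorem comb_change_basis {ι : Type*} [Fintype ι] (c : ι → Ω) (f : ι → LaurentSeries k)
    {r : ℕ} (e : Fin r → Ω) (A : ι → Fin r → k) (hA : ∀ i, c i = ∑ m, A i m • e m) :
    ∑ i, HahnSeries.C (c i) * coeffMap (algebraMap k Ω) (f i) =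
      ∑ m, HahnSeries.C (e m) * coeffMap (algebraMap k Ω) (∑ i, HahnSeries.C (A i m) * f i) := by
  ext n
  rw [coeff_sum_C_mul, coeff_sum_C_mul]
  simp only [HahnSeries.coeff_sum, HahnSeries.C_mul_eq_smul, HahnSeries.coeff_smul, hA,
    Finset.smul_sum, Finset.sum_smul, smul_smul, smul_eq_mul]
  rw [Finset.sum_comm]
  refine Finset.sum_congr rfl fun m _ => Finset.sum_congr rfl fun i _ => ?_
  rw [mul_comm]

theorem C_mem_intermediateField (a : k) : (HahnSeries.C a : LaurentSeries k) ∈ F₁ := by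
  have := F₁.algebraMap_mem a
  rwa [algebraMap_laurentSeries_eq_single] at this

/-- general form of `exists_repr`. -/
theorem exists_repr_adjoin {x : LaurentSeries Ω}
    (hx : x ∈ IntermediateField.adjoin Ω
      (⇑(coeffMap (algebraMap k Ω)) '' (F₁ : Set (LaurentSeries k)))) :
    ∃ (r : ℕ) (c : Fin r → Ω) (f g : Fin r → LaurentSeries k), LinearIndependent k c ∧
      (∀ i, f i ∈ F₁) ∧ (∀ i, g i ∈ F₁) ∧
      (∑ i, HahnSeries.C (c i) * coeffMap (algebraMap k Ω) (g i)) ≠ 0 ∧
      x * ∑ i, HahnSeries.C (c i) * coeffMap (algebraMap k Ω) (g i) =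
        ∑ i, HahnSeries.C (c i) * coeffMap (algebraMap k Ω) (f i) := by
  obtain ⟨a, b, ⟨n, c, f, hf, rfl⟩, ⟨n', c', f', hf', rfl⟩, hb0, hab⟩ := exists_frac hx
  obtain ⟨r, e, A, he, hA⟩ := exists_basis_repr k (Sum.elim c c')
  have h1 := comb_change_basis c f e (fun i => A (Sum.inl i)) (fun i => hA (Sum.inl i))
  have h2 := comb_change_basis c' f' e (fun i => A (Sum.inr i)) (fun i => hA (Sum.inr i))
  refine ⟨r, e, fun m => ∑ i, HahnSeries.C (A (Sum.inl i) m) * f i,
    fun m => ∑ i, HahnSeries.C (A (Sum.inr i) m) * f' i, he,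
    fun m => sum_mem fun i _ => mul_mem (C_mem_intermediateField _) (hf i),
    fun m => sum_mem fun i _ => mul_mem (C_mem_intermediateField _) (hf' i), ?_, ?_⟩
  · rw [← h2]; exact hb0
  · rw [← h2, ← h1]; exact hab

end

section

variable {K Ω : Type*} [Field K] [Field Ω] [Algebra K Ω]

/-- LD-1. -/
theorem linearIndependent_coeffMap {ι : Type*} (v : ι → LaurentSeries K)
    (hv : LinearIndependent K v) :
    LinearIndependent Ω (fun i => coeffMap (algebraMap K Ω) (v i)) := by
  rw [linearIndependent_iff']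
  intro s g hg i hi
  obtain ⟨r, e, A, he, hA⟩ := exists_basis_repr K (fun j : s => g j)
  have h1 := comb_change_basis (fun j : s => g j) (fun j : s => v j) e A hA
  have h2 : ∑ j : s, HahnSeries.C (g j) * coeffMap (algebraMap K Ω) (v j) = 0 := by
    rw [← hg, ← Finset.sum_coe_sort s (fun j => g j • coeffMap (algebraMap K Ω) (v j))]
    refine Finset.sum_congr rfl fun j _ => ?_
    rw [HahnSeries.C_mul_eq_smul]
  rw [h2] at h1
  have h3 := linDisj e he _ h1.symm
  have h4 : ∀ m, ∀ j : s, A j m = 0 := by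
    intro m
    have h5 : ∑ j : s, A j m • v j = 0 := by
      have := congrFun h3 m
      simp only [HahnSeries.C_mul_eq_smul, Pi.zero_apply] at this
      exact this
    have hv' : LinearIndependent K (fun j : s => v j) := hv.comp _ Subtype.val_injective
    exact fun j => Fintype.linearIndependent_iff.1 hv' (fun j => A j m) h5 j
  have := hA ⟨i, hi⟩
  simp only [h4, zero_smul, Finset.sum_const_zero] at this
  exact this

/-- LD-2. -/
theorem exists_coeffMap_eq (f : LaurentSeries Ω)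
    (h : ∀ k : ℤ, f.coeff k ∈ Set.range (algebraMap K Ω)) :
    ∃ f₀ : LaurentSeries K, coeffMap (algebraMap K Ω) f₀ = f := by
  choose c hc using h
  refine ⟨⟨c, f.isPWO_support'.mono fun m hm => ?_⟩, ?_⟩
  · intro h0
    apply hm
    have := hc m
    rw [h0] at this
    exact (map_eq_zero (algebraMap K Ω)).1 this
  · ext m
    rw [coeffMap_coeff]
    exact hc m

/-- LD-3 (general form). -/
theorem mem_of_coeffMap_mem_adjoin (F₁ : IntermediateField K (LaurentSeries K))
    (f₀ : LaurentSeries K)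
    (h : coeffMap (algebraMap K Ω) f₀ ∈
      IntermediateField.adjoin Ω (⇑(coeffMap (algebraMap K Ω)) '' (F₁ : Set (LaurentSeries K)))) :
    f₀ ∈ F₁ := by
  obtain ⟨r, c, f, g, hc, hf, hg, hne, heq⟩ := exists_repr_adjoin h
  have h0 : ∑ i, HahnSeries.C (c i) * coeffMap (algebraMap K Ω) (f₀ * g i - f i) = 0 := by
    simp only [map_sub, map_mul, mul_sub, Finset.sum_sub_distrib]
    rw [← heq, Finset.mul_sum, sub_eq_zero]
    refine Finset.sum_congr rfl fun i _ => ?_
    ring
  have h1 := linDisj c hc (fun i => f₀ * g i - f i) h0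
  have h2 : ∃ i, g i ≠ 0 := by
    by_contra hcon
    simp only [not_exists, not_not] at hcon
    exact hne (Finset.sum_eq_zero fun i _ => by rw [hcon i, map_zero, mul_zero])
  obtain ⟨i, hi⟩ := h2
  have h3 : f₀ * g i - f i = 0 := congrFun h1 i
  have h4 : f₀ = f i * (g i)⁻¹ := by
    rw [eq_mul_inv_iff_mul_eq₀ hi]
    exact sub_eq_zero.1 h3
  rw [h4]
  exact mul_mem (hf i) (inv_mem (hg i))

/-- LD-4. -/
theorem FF_eq_adjoin_image (N : ℕ) :
    FF Ω N = IntermediateField.adjoin Ω
      (⇑(coeffMap (algebraMap K Ω)) '' ((FF K N : IntermediateField K (LaurentSeries K)) :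
        Set (LaurentSeries K))) := by
  apply le_antisymm
  · refine IntermediateField.adjoin_le_iff.2 ?_
    rintro _ ⟨d, hd, hdN, rfl⟩
    refine IntermediateField.subset_adjoin _ _ ⟨_, jqModCd_mem_full K N hdN, ?_⟩
    rw [coeffMap_qExpand, coeffMap_jqModC]
  · refine IntermediateField.adjoin_le_iff.2 ?_
    rintro _ ⟨f, hf, rfl⟩
    exact coeffMap_mem_FF N _ hf

/-- LD-5 (explicit arguments): `F_Ω ∩ K((q)) = F_K`. -/
theorem mem_FF_of_coeffMap_mem' (N : ℕ) (f₀ : LaurentSeries K)
    (h : coeffMap (algebraMap K Ω) f₀ ∈ FF Ω N) : f₀ ∈ FF K N := by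
  rw [FF_eq_adjoin_image (K := K) N] at h
  exact mem_of_coeffMap_mem_adjoin _ f₀ h

end

section

variable {k Ω : Type*} [Field k] [Field Ω] [Algebra k Ω]

/-- every element of `FF Ω N` is a quotient `a / b` of two `Ω`-linear combinations of elements of
`FF k N`, written over a common `k`-linearly independent family of coefficients. -/
theorem exists_repr (k : Type*) [Field k] [Algebra k Ω] {N : ℕ} {x : LaurentSeries Ω}
    (hx : x ∈ FF Ω N) :
    ∃ (r : ℕ) (c : Fin r → Ω) (f g : Fin r → LaurentSeries k), LinearIndependent k c ∧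
      (∀ i, f i ∈ FF k N) ∧ (∀ i, g i ∈ FF k N) ∧
      (∑ i, HahnSeries.C (c i) * coeffMap (algebraMap k Ω) (g i)) ≠ 0 ∧
      x * ∑ i, HahnSeries.C (c i) * coeffMap (algebraMap k Ω) (g i) = ∑ i, HahnSeries.C (c i) * coeffMap (algebraMap k Ω) (f i) := by
  rw [FF_eq_adjoin_image (K := k) N] at hx
  exact exists_repr_adjoin hx

/-- (INT) `FF Ω N ∩ k((q)) = FF k N`. -/
theorem mem_FF_of_coeffMap_mem {N : ℕ} {x : LaurentSeries k} (hx : coeffMap (algebraMap k Ω) x ∈ FF Ω N) : x ∈ FF k N :=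
  mem_FF_of_coeffMap_mem' N x hx

end

end Fermat.Agent.GR.C
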