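import Fermat.Agent.GR.C.Basic
import Fermat.Agent.S24.PlacesDedekind

/-! # GR-C, piece DOWN: restriction of places -/

set_option autoImplicit false

noncomputable section

open ModularCurve AlgebraicCurve

namespace Fermat.Agent.GR.C

section Down

open Fermat.Agent.S24.Zeros in
/-- (DOWN, abstract) restriction of a place along a field embedding compatible with the constants:
either trivial or a place, with a ramification index. -/
theorem exists_place_restrict {K F K' F' : Type*} [Field K] [Field F] [Algebra K F] [Field K']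
    [Field F'] [Algebra K' F'] (φ : F →+* F')
    (hφ : ∀ a : K, ∃ a' : K', φ (algebraMap K F a) = algebraMap K' F' a') (w : Place K' F') :
    (∀ f : F, w.ord (φ f) = 0) ∨ ∃ (v : Place K F) (e : ℤ), ∀ f : F, w.ord (φ f) = e * v.ord f := by
  classical
  by_cases h0 : ∀ f : F, w.ord (φ f) = 0
  · exact Or.inl h0
  right
  simp only [not_forall] at h0
  obtain ⟨f₀, hf₀⟩ := h0
  -- the function `o = ord_w ∘ φ`
  set o : F → ℤ := fun f => w.ord (φ f) with ho
  have o_mul : ∀ {f g : F}, f ≠ 0 → g ≠ 0 → o (f * g) = o f + o g := by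
    intro f g hf hg
    simp only [ho, map_mul]
    exact w.ord_mul ((map_ne_zero φ).2 hf) ((map_ne_zero φ).2 hg)
  have o_inv : ∀ f : F, o f⁻¹ = - o f := by
    intro f
    simp only [ho, map_inv₀]
    exact w.ord_inv _
  have o_zpow : ∀ (f : F) (n : ℤ), o (f ^ n) = n * o f := by
    intro f n
    simp only [ho, map_zpow₀]
    exact w.ord_zpow _ _
  have o_zero : o 0 = 0 := by simp [ho]
  -- a positive value exists
  have hpos : ∃ n : ℕ, 0 < n ∧ ∃ f : F, o f = n := by
    rcases lt_or_gt_of_ne hf₀ with h | h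
    · refine ⟨(- o f₀).toNat, ?_, f₀⁻¹, ?_⟩
      · have : o f₀ < 0 := h
        omega
      · rw [o_inv]
        have : o f₀ < 0 := h
        omega
    · refine ⟨(o f₀).toNat, ?_, f₀, ?_⟩
      · have : 0 < o f₀ := h
        omega
      · have : 0 < o f₀ := h
        omega
  set e : ℕ := Nat.find hpos with he
  obtain ⟨he0, t, ht⟩ := Nat.find_spec hpos
  rw [← he] at he0 ht
  have hmin : ∀ (m : ℕ), 0 < m → (∃ f : F, o f = m) → e ≤ m := fun m hm hf =>
    Nat.find_min' hpos ⟨hm, hf⟩
  have ht0 : t ≠ 0 := by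
    rintro rfl
    rw [o_zero] at ht
    omega
  have heZ : (0 : ℤ) < e := by exact_mod_cast he0
  -- divisibility
  have hdvd : ∀ f : F, (e : ℤ) ∣ o f := by
    intro f
    rcases eq_or_ne f 0 with rfl | hf
    · rw [o_zero]; exact dvd_zero _
    set m := o f with hm
    have hr0 : 0 ≤ m % e := Int.emod_nonneg _ heZ.ne'
    have hr1 : m % e < e := Int.emod_lt_of_pos _ heZ
    have hg : o (f * t ^ (-(m / e))) = m % e := by
      rw [o_mul hf (zpow_ne_zero _ ht0), o_zpow, ht, ← hm]
      have := Int.emod_add_mul_ediv m e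
      linarith
    by_contra hnd
    have hrne : m % e ≠ 0 := fun h => hnd (Int.dvd_of_emod_eq_zero h)
    have := hmin (m % e).toNat (by omega) ⟨_, by rw [hg]; omega⟩
    omega
  -- the valuation subring
  set A : ValuationSubring F := w.toValuationSubring.comap φ with hA
  have memA : ∀ f : F, f ∈ A ↔ 0 ≤ o f := by
    intro f
    rw [hA, ValuationSubring.mem_comap]
    exact mem_iff_ord_nonneg' w (φ f)
  have htA : t ∈ A := (memA t).2 (by rw [ht]; exact heZ.le)
  set τ : A := ⟨t, htA⟩ with hτ
  have unitA : ∀ a : A, o (a : F) = 0 → a ≠ 0 → IsUnit a := by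
    intro a ha ha0
    have haF : (a : F) ≠ 0 := by simpa using ha0
    have hinv : (a : F)⁻¹ ∈ A := (memA _).2 (by rw [o_inv, ha]; simp)
    exact IsUnit.of_mul_eq_one ⟨(a : F)⁻¹, hinv⟩ (Subtype.ext (mul_inv_cancel₀ haF))
  have o_unit : ∀ a : A, IsUnit a → o (a : F) = 0 := by
    intro a ha
    obtain ⟨b, hb⟩ := ha.exists_right_inv
    have hbF : (a : F) * (b : F) = 1 := congrArg Subtype.val hb
    have ha0 : (a : F) ≠ 0 := left_ne_zero_of_mul_eq_one hbF
    have hb0 : (b : F) ≠ 0 := right_ne_zero_of_mul_eq_one hbF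
    have h1 : o ((a : F) * (b : F)) = 0 := by rw [hbF]; simp [ho]
    rw [o_mul ha0 hb0] at h1
    have h2 := (memA _).1 a.2
    have h3 := (memA _).1 b.2
    omega
  have hτirr : Irreducible τ := by
    refine ⟨fun hu => ?_, fun a b hab => ?_⟩
    · have := o_unit τ hu
      simp only [hτ] at this
      omega
    · have habF : t = (a : F) * (b : F) := congrArg Subtype.val hab
      have ha0 : (a : F) ≠ 0 := fun h => ht0 (by rw [habF, h, zero_mul])
      have hb0 : (b : F) ≠ 0 := fun h => ht0 (by rw [habF, h, mul_zero])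
      have h1 : o (a : F) + o (b : F) = e := by rw [← o_mul ha0 hb0, ← habF, ht]
      have h2 := (memA _).1 a.2
      have h3 := (memA _).1 b.2
      obtain ⟨x, hx⟩ := hdvd (a : F)
      obtain ⟨y, hy⟩ := hdvd (b : F)
      have hx0 : 0 ≤ x := by
        by_contra h
        have : (e : ℤ) * x < 0 := mul_neg_of_pos_of_neg heZ (not_le.1 h)
        omega
      have hy0 : 0 ≤ y := by
        by_contra h
        have : (e : ℤ) * y < 0 := mul_neg_of_pos_of_neg heZ (not_le.1 h)
        omega
      have hxy : x + y = 1 := by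
        have : (e : ℤ) * (x + y) = e * 1 := by rw [mul_add, ← hx, ← hy, h1, mul_one]
        exact mul_left_cancel₀ heZ.ne' this
      rcases (show x = 0 ∨ y = 0 by omega) with h | h
      · left
        exact unitA a (by rw [hx, h, mul_zero]) (by simpa using ha0)
      · right
        exact unitA b (by rw [hy, h, mul_zero]) (by simpa using hb0)
  have hfact : IsDiscreteValuationRing.HasUnitMulPowIrreducibleFactorization A := by
    refine ⟨τ, hτirr, ?_⟩
    intro x hx
    have hxF : (x : F) ≠ 0 := by simpa using hx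
    obtain ⟨m, hm⟩ := hdvd (x : F)
    have hx0 := (memA _).1 x.2
    have hm0 : 0 ≤ m := by
      by_contra h
      have : (e : ℤ) * m < 0 := mul_neg_of_pos_of_neg heZ (not_le.1 h)
      omega
    refine ⟨m.toNat, ?_⟩
    have hpow : o (t ^ m.toNat) = e * m := by
      have := o_zpow t (m.toNat : ℤ)
      rw [zpow_natCast, ht, Int.toNat_of_nonneg hm0] at this
      rw [this, mul_comm]
    have hu : o ((x : F) * (t ^ m.toNat)⁻¹) = 0 := by
      rw [o_mul hxF (inv_ne_zero (pow_ne_zero _ ht0)), o_inv, hpow, hm]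
      ring
    have huA : (x : F) * (t ^ m.toNat)⁻¹ ∈ A := (memA _).2 hu.ge
    have hunit : IsUnit (⟨_, huA⟩ : A) := unitA ⟨_, huA⟩ hu (by
      intro h
      have := congrArg Subtype.val h
      simp only [ZeroMemClass.coe_zero, mul_eq_zero, inv_eq_zero] at this
      rcases this with h | h
      · exact hxF h
      · exact pow_ne_zero _ ht0 h)
    refine ⟨hunit.unit, Subtype.ext ?_⟩
    simp only [IsUnit.unit_spec, MulMemClass.coe_mul, SubmonoidClass.coe_pow, hτ]
    field_simp
  have : IsDiscreteValuationRing A :=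
    IsDiscreteValuationRing.ofHasUnitMulPowIrreducibleFactorization hfact
  have hne_top : A ≠ ⊤ := by
    intro h
    have : t⁻¹ ∈ A := by rw [h]; exact ValuationSubring.mem_top _
    have := (memA _).1 this
    rw [o_inv, ht] at this
    omega
  let v : Place K F :=
    { toValuationSubring := A
      algebraMap_mem' := fun a => by
        obtain ⟨a', ha'⟩ := hφ a
        rw [hA, ValuationSubring.mem_comap, ha']
        exact w.algebraMap_mem' a'
      ne_top' := hne_top
      isPrincipalIdealRing' := inferInstance }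
  refine ⟨v, e, fun f => ?_⟩
  rcases eq_or_ne f 0 with rfl | hf
  · simp
  obtain ⟨u, hu⟩ := v.exists_unit_mul_zpow hf (π := τ) hτirr
  have hu0 : ((u : v.toValuationSubring) : F) ≠ 0 := by
    simp [ne_eq, ZeroMemClass.coe_eq_zero]
  change o f = e * v.ord f
  conv_lhs => rw [hu]
  rw [o_mul hu0 (zpow_ne_zero _ ht0), o_zpow, o_unit _ u.isUnit, ht, zero_add, mul_comm]

variable {k Ω : Type*} [Field k] [Field Ω] [Algebra k Ω] {N n : ℕ}

/-- (C3) -/
theorem isKummer_coeffMap_algebraMap {u : LaurentSeries k} (hu : IsKummer (N := N) n u) :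
    IsKummer (N := N) n (coeffMap (algebraMap k Ω) u) := by
  obtain ⟨h0, hmem, hord⟩ := hu
  refine ⟨(map_ne_zero _).2 h0, coeffMap_mem_FF N _ hmem, fun w => ?_⟩
  have h2 : (⟨coeffMap (algebraMap k Ω) u, coeffMap_mem_FF N _ hmem⟩ : FF Ω N) =
      bc N (algebraMap k Ω) (⟨u, hmem⟩ : FF k N) := rfl
  rw [h2]
  rcases exists_place_restrict (K := k) (K' := Ω) (bc N (algebraMap k Ω))
    (fun a => ⟨algebraMap k Ω a, bc_algebraMap N _ a⟩) w with h | ⟨v, e, h⟩
  · rw [h]; exact dvd_zero _
  · rw [h]; exact (hord v).mul_left e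

end Down

end Fermat.Agent.GR.C
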