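import Fermat.Agent.GR.C.Basic

/-!
# GR-C: every element of `F_{ℚ̄}` is defined over a number field
-/

set_option autoImplicit false

noncomputable section

open ModularCurve AlgebraicCurve IntermediateField

namespace Fermat.Agent.GR.C

/-- OP-1. -/
theorem exists_finite_level {k K : Type*} [Field k] [Field K] [Algebra k K]
    [Algebra.IsAlgebraic k K] (N : ℕ) (f : LaurentSeries K) (hf : f ∈ FF K N) :
    ∃ L : IntermediateField k K, FiniteDimensional k L ∧
      ∀ σ : K ≃ₐ[k] K, (∀ a ∈ L, σ a = a) → coeffMap (σ : K →+* K) f = f := by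
  induction hf using IntermediateField.adjoin_induction with
  | mem x hx =>
      obtain ⟨d, hd, hdN, rfl⟩ := hx
      refine ⟨⊥, inferInstance, fun σ _ => ?_⟩
      rw [coeffMap_qExpand, coeffMap_jqModC]
  | algebraMap a =>
      refine ⟨IntermediateField.adjoin k {a}, IntermediateField.adjoin.finiteDimensional
        (Algebra.IsIntegral.isIntegral a), fun σ hσ => ?_⟩
      rw [coeffMap_algebraMap']
      congr 1
      exact hσ a (IntermediateField.mem_adjoin_simple_self k a)
  | add x y _ _ hx hy =>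
      obtain ⟨L₁, h₁, hx⟩ := hx
      obtain ⟨L₂, h₂, hy⟩ := hy
      refine ⟨L₁ ⊔ L₂, IntermediateField.finiteDimensional_sup _ _, fun σ hσ => ?_⟩
      rw [map_add, hx σ fun a ha => hσ a (le_sup_left (a := L₁) ha),
        hy σ fun a ha => hσ a (le_sup_right (a := L₁) ha)]
  | inv x _ hx =>
      obtain ⟨L₁, h₁, hx⟩ := hx
      refine ⟨L₁, h₁, fun σ hσ => ?_⟩
      rw [map_inv₀, hx σ hσ]
  | mul x y _ _ hx hy =>
      obtain ⟨L₁, h₁, hx⟩ := hx
      obtain ⟨L₂, h₂, hy⟩ := hy
      refine ⟨L₁ ⊔ L₂, IntermediateField.finiteDimensional_sup _ _, fun σ hσ => ?_⟩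
      rw [map_mul, hx σ fun a ha => hσ a (le_sup_left (a := L₁) ha),
        hy σ fun a ha => hσ a (le_sup_right (a := L₁) ha)]

end Fermat.Agent.GR.C
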