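import Fermat.Agent.GR.C.Basic
import Fermat.Agent.GR.S.Bridge
import Fermat.Agent.S24.Degree

/-!
# GR-C, piece FD-4: the function field over `ℚ̄` is finite over `ℚ̄(j)`
-/

set_option autoImplicit false

noncomputable section

open ModularCurve AlgebraicCurve IntermediateField

namespace Fermat.Agent.GR.C

theorem FinDimQbar_transport {K L : Type*} [Field K] [Field L] [Algebra K L]
    (E₁ E₂ : IntermediateField K L) (h : E₁ = E₂) (x₁ : E₁) (x₂ : E₂) (hx : (x₁ : L) = x₂)
    (hfd : FiniteDimensional (IntermediateField.adjoin K {x₁}) E₁) :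
    FiniteDimensional (IntermediateField.adjoin K {x₂}) E₂ := by
  subst h
  obtain rfl : x₁ = x₂ := Subtype.ext hx
  exact hfd

theorem FinDimQbar_coe_jF (N : ℕ) :
    ((Fermat.Agent.S24.jF N : Fermat.Agent.S24.FF N) : LaurentSeries (AlgebraicClosure ℚ)) =
      jqModC (AlgebraicClosure ℚ) := by
  have h1 : (jq : LaurentSeries ℚ) = jqModC ℚ := rfl
  change coeffEmb (AlgebraicClosure ℚ) jq = _
  rw [h1, coeffEmb, coeffMap_jqModC]

theorem finiteDimensional_FF_Qbar (N : ℕ) [NeZero N] :
    FiniteDimensional (IntermediateField.adjoin (AlgebraicClosure ℚ) {jF (AlgebraicClosure ℚ) N})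
      (FF (AlgebraicClosure ℚ) N) :=
  FinDimQbar_transport (modularFunctionFieldBar N) (FF (AlgebraicClosure ℚ) N)
    (Fermat.Agent.GR.S.bar_eq_FF N) (Fermat.Agent.S24.jF N) (jF (AlgebraicClosure ℚ) N)
    (FinDimQbar_coe_jF N) (Fermat.Agent.S24.finiteDimensional_FF N)

end Fermat.Agent.GR.C
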