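import Fermat.Agent.GR.C.CanonDefs
import Fermat.Agent.S24.ZerosCore

/-!
# GR-C: CAN-1, every class has a representative with poles only at the poles of `x`
-/

set_option autoImplicit false

noncomputable section

open ModularCurve AlgebraicCurve IntermediateField

namespace Fermat.Agent.GR.C

open Fermat.Agent.S24.Zeros in
theorem Can1_aux {K E : Type*} [Field K] [Field E] [Algebra K E] [IsAlgClosed K] [CharZero K]
    {x : E} (hx : Transcendental K x)
    (hfin : FiniteDimensional (IntermediateField.adjoin K {x}) E) {n : ℕ} (hn : 0 < n)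
    (u : E) : ∃ b : ℕ, ∃ z : E, z ≠ 0 ∧
      ∀ v : Place K E, (b : ℤ) * min 0 (v.ord x) ≤ v.ord (u * z ^ n) := by
  classical
  have hfr := isFractionRing_intClosure (K := K) x
  obtain ⟨a, d, hd, hdiv⟩ := IsFractionRing.div_surjective (A := intClosure K x) u
  have hd0 : algebraMap (intClosure K x) E d ≠ 0 := by
    intro h
    exact (nonZeroDivisors.ne_zero hd) ((IsFractionRing.injective _ E) (by rw [h, map_zero]))
  set w : E := u * (algebraMap (intClosure K x) E d) ^ n with hw
  have hwint : w = algebraMap (intClosure K x) E (a * d ^ (n - 1)) := by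
    obtain ⟨m, rfl⟩ : ∃ m, n = m + 1 := ⟨n - 1, by omega⟩
    rw [hw, ← hdiv, map_mul, map_pow, Nat.add_sub_cancel, pow_succ]
    field_simp
  have hpoles := finite_poles hx hfin
  refine ⟨hpoles.toFinset.sup fun v => (-(v.ord w)).toNat, _, hd0, fun v => ?_⟩
  by_cases hv : 0 ≤ v.ord x
  · rw [min_eq_left hv, mul_zero, ← hw, hwint]
    exact ord_nonneg_of_mem v (intClosure_mem v hv _)
  · rw [not_le] at hv
    rw [min_eq_right hv.le, ← hw]
    have h1 : (-(v.ord w)).toNat ≤ hpoles.toFinset.sup fun v => (-(v.ord w)).toNat :=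
      Finset.le_sup (f := fun v : Place K E => (-(v.ord w)).toNat) (hpoles.mem_toFinset.mpr hv)
    set b := hpoles.toFinset.sup fun v => (-(v.ord w)).toNat
    have h2 : -(v.ord w) ≤ (b : ℤ) := by
      have := Int.self_le_toNat (-(v.ord w))
      omega
    nlinarith

variable {Ω : Type} [Field Ω] {F : IntermediateField Ω (LaurentSeries Ω)}

/-- CAN-1. -/
theorem exists_good [IsAlgClosed Ω] [CharZero Ω] {x : F} (hx : Transcendental Ω x)
    (hfin : FiniteDimensional (IntermediateField.adjoin Ω {x}) F) {n : ℕ} (hn : 0 < n)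
    {u : F} (hu : u ≠ 0) : ∃ b : ℕ, ∃ w ∈ Cls n u, Good x b w := by
  obtain ⟨b, z, hz, h⟩ := Can1_aux hx hfin hn u
  exact ⟨b, _, ⟨z, hz, rfl⟩, h⟩

end Fermat.Agent.GR.C
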