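import Fermat.Agent.GR.C.Basic

/-!
# GR-C: the canonical representative of a class `u · (Fˣ)ⁿ` (definitions)

`F ⊆ Ω((q))` a function field in one variable over the algebraically closed field `Ω`, `x : F`
transcendental with `[F : Ω(x)] < ∞`.  Among all `w = u zⁿ` we take those whose poles are bounded
by `b · (x)_∞` with `b` minimal, among those the ones of maximal `q`-order, and normalise the
leading coefficient to `1`.  This `w` is unique, so it is preserved by every automorphism.
-/

set_option autoImplicit false

noncomputable section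

open ModularCurve AlgebraicCurve IntermediateField

namespace Fermat.Agent.GR.C

variable {Ω : Type} [Field Ω] {F : IntermediateField Ω (LaurentSeries Ω)}

/-- The poles of `w` are bounded by `b · (x)_∞`. -/
def Good (x : F) (b : ℕ) (w : F) : Prop :=
  ∀ v : Place Ω F, (b : ℤ) * min 0 (v.ord x) ≤ v.ord w

/-- The class of `u` modulo `n`-th powers. -/
def Cls (n : ℕ) (u : F) : Set F := {w | ∃ z : F, z ≠ 0 ∧ w = u * z ^ n}

/-- `w` is the canonical representative of the class of `u`. -/
structure IsCan (x : F) (n : ℕ) (u w : F) : Prop where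
  mem : w ∈ Cls n u
  lead : (w : LaurentSeries Ω).leadingCoeff = 1
  ex : ∃ b : ℕ, Good x b w ∧ (∀ b' < b, ∀ w' ∈ Cls n u, ¬ Good x b' w') ∧
    ∀ w' ∈ Cls n u, Good x b w' → (w' : LaurentSeries Ω).order ≤ (w : LaurentSeries Ω).order

end Fermat.Agent.GR.C
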