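import Mathlib

/-!
# GR-C, piece R: `n`-th roots of Laurent series
-/

set_option autoImplicit false

noncomputable section

namespace Fermat.Agent.GR.C

theorem binomialSeries_nsmul_aux {R : Type*} [CommRing R] [Algebra ℚ R] (r : ℚ) (k : ℕ) :
    PowerSeries.binomialSeries R ((k : ℚ) * r) = PowerSeries.binomialSeries R r ^ k := by
  induction k with
  | zero => simp
  | succ k ih =>
    rw [pow_succ, ← ih, ← PowerSeries.binomialSeries_add]
    congr 1
    push_cast
    ring

/-- a power series with constant coefficient `1` over a `ℚ`-algebra has an `n`-th root with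
constant coefficient `1`. -/
theorem exists_pow_eq_powerSeries {R : Type*} [CommRing R] [Algebra ℚ R] (n : ℕ) (hn : n ≠ 0)
    (f : PowerSeries R) (hf : PowerSeries.constantCoeff f = 1) :
    ∃ g : PowerSeries R, PowerSeries.constantCoeff g = 1 ∧ g ^ n = f := by
  have ha : PowerSeries.HasSubst (f - 1) := by
    apply PowerSeries.HasSubst.of_constantCoeff_zero'
    simp [hf]
  have hn' : (n : ℚ) ≠ 0 := by exact_mod_cast hn
  have key : PowerSeries.binomialSeries R (1 / (n : ℚ)) ^ n = 1 + PowerSeries.X := by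
    rw [← binomialSeries_nsmul_aux, mul_one_div_cancel hn']
    have := PowerSeries.binomialSeries_nat (R := ℚ) (A := R) 1
    simpa using this
  refine ⟨(PowerSeries.binomialSeries R (1 / (n : ℚ))).subst (f - 1), ?_, ?_⟩
  · have h0 : PowerSeries.constantCoeff
        ((PowerSeries.binomialSeries R (1 / (n : ℚ)) - 1).subst (f - 1)) = 0 := by
      apply PowerSeries.constantCoeff_subst_eq_zero
      · show PowerSeries.constantCoeff (f - 1) = 0
        simp [hf]
      · simp
    rw [PowerSeries.subst_sub ha] at h0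
    have h1 : (1 : PowerSeries R).subst (f - 1) = (1 : PowerSeries R) := by
      have := PowerSeries.subst_C (a := (f - 1 : PowerSeries R)) (1 : R)
      simpa using this
    rw [h1, map_sub] at h0
    simpa [sub_eq_zero] using h0
  · rw [← PowerSeries.subst_pow ha, key, PowerSeries.subst_add ha, PowerSeries.subst_X ha]
    have h1 : (1 : PowerSeries R).subst (f - 1) = (1 : PowerSeries R) := by
      have := PowerSeries.subst_C (a := (f - 1 : PowerSeries R)) (1 : R)
      simpa using this
    rw [h1]; ring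

theorem exists_pow_eq_laurent {Ω : Type*} [Field Ω] [IsAlgClosed Ω] [CharZero Ω] (n : ℕ)
    (hn : n ≠ 0) (U : LaurentSeries Ω) (hU : (n : ℤ) ∣ U.order) :
    ∃ v : LaurentSeries Ω, v ^ n = U := by
  classical
  by_cases hU0 : U = 0
  · exact ⟨0, by rw [hU0, zero_pow hn]⟩
  obtain ⟨m, hm⟩ := hU
  set c : Ω := U.coeff U.order with hc
  have hc0 : c ≠ 0 := fun h => hU0 (HahnSeries.coeff_order_eq_zero.mp h)
  obtain ⟨c0, hc0'⟩ := IsAlgClosed.exists_pow_nat_eq c (Nat.pos_of_ne_zero hn)
  set P : PowerSeries Ω := LaurentSeries.powerSeriesPart U with hP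
  have hPc : PowerSeries.constantCoeff P = c := by
    rw [← PowerSeries.coeff_zero_eq_constantCoeff_apply, hP, LaurentSeries.powerSeriesPart_coeff]
    simp [hc]
  obtain ⟨g, -, hg⟩ := exists_pow_eq_powerSeries (R := Ω) n hn (PowerSeries.C c⁻¹ * P) (by
    rw [map_mul, hPc, PowerSeries.constantCoeff_C, inv_mul_cancel₀ hc0])
  refine ⟨HahnSeries.single m c0 * HahnSeries.ofPowerSeries ℤ Ω g, ?_⟩
  rw [mul_pow, HahnSeries.single_pow, ← map_pow, hg, hc0', map_mul, HahnSeries.ofPowerSeries_C,
    nsmul_eq_mul, ← hm]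
  conv_rhs => rw [← LaurentSeries.single_order_mul_powerSeriesPart U]
  rw [← mul_assoc]
  congr 1
  rw [HahnSeries.C_apply, HahnSeries.single_mul_single, add_zero, mul_inv_cancel₀ hc0]

end Fermat.Agent.GR.C
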